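import Fermat.Agent.S33.Alg.Simple

/-!
# S33 / Alg / Cov  (leaf ALG-B2, pure Mathlib)

Relative form of `trivial_of_simple` : `C' < C` stable under `I` with nothing stable in between, and `τ0` has a fixed
vector in `C / C'`; then `I` acts trivially on `C / C'`.

## Proof
* `𝔪 C ⊆ C'` : for `a ∈ 𝔪`, `Y := a • C ⊔ C'` (`C.map (a • LinearMap.id) ⊔ C'`) is stable, between `C'` and `C`.  If
  `Y = C` then by induction `C ≤ a ^ n • C ⊔ C' = C'` (`hnil`), contradicting `C' < C`.  So `Y = C'`.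
* Let `G := ↥I`, `ρI : G →* End W := ρ.comp I.subtype`; `C`, `C'` are `Stable ρI ⊤`.
  `X := ↥C ⧸ (C'.comap C.subtype)` with `r := quotRep (resRep ρI C _) _ _`, `ε' := ε.comp I.subtype`.
  - `hrel` : `H.CH g x` and `(t g - 1 - ε g) • x ∈ 𝔪 C ⊆ C'` (`H.ord`).
  - `hinj` : by `Ideal.IsMaximal.exists_inv` there are `b`, `i ∈ 𝔪` with `b (ε τ0 - 1) + i = 1`; if `(ε τ0 - 1) x ∈ C'`,
    `x ∈ C`, then `x = b (ε τ0 - 1) x + i x ∈ C'`.
  - `hsimple` : a stable `Y ≤ X` pulls back to the stable submodule `(Y.comap mkQ).map C.subtype` between `C'` and `C`; use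
    `hmax`.
  - `x0 := mk ⟨x, hx⟩`.
-/

set_option autoImplicit false

namespace Fermat.Agent.S33.Alg

variable {𝕋 W Γ : Type*} [CommRing 𝕋] [AddCommGroup W] [Module 𝕋 W] [Group Γ]

/-- `𝔪 C ⊆ C'`. -/
theorem Cov_smul_mem {𝔪 : Ideal 𝕋} (hnil : Nil 𝔪 W) {ρ : Γ →* Module.End 𝕋 W}
    {I : Subgroup Γ} {C' C : Submodule 𝕋 W} (hC' : Stable ρ I C') (hC : Stable ρ I C)
    (hlt : C' < C) (hmax : ∀ Y : Submodule 𝕋 W, Stable ρ I Y → C' ≤ Y → Y ≤ C → Y = C' ∨ Y = C)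
    {a : 𝕋} (ha : a ∈ 𝔪) {x : W} (hx : x ∈ C) : a • x ∈ C' := by
  set Y : Submodule 𝕋 W := C.map (a • LinearMap.id) ⊔ C' with hY
  have hmemY : ∀ y, y ∈ Y ↔ ∃ c ∈ C, ∃ c' ∈ C', y = a • c + c' := by
    intro y
    rw [hY, Submodule.mem_sup]
    constructor
    · rintro ⟨_, ⟨c, hc, rfl⟩, c', hc', rfl⟩
      exact ⟨c, hc, c', hc', rfl⟩
    · rintro ⟨c, hc, c', hc', rfl⟩
      exact ⟨a • c, ⟨c, hc, rfl⟩, c', hc', rfl⟩
  have hYst : Stable ρ I Y := by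
    intro τ hτ y hy
    obtain ⟨c, hc, c', hc', rfl⟩ := (hmemY y).1 hy
    rw [map_add, map_smul]
    exact (hmemY _).2 ⟨_, hC τ hτ c hc, _, hC' τ hτ c' hc', rfl⟩
  have hYC : Y ≤ C := by
    intro y hy
    obtain ⟨c, hc, c', hc', rfl⟩ := (hmemY y).1 hy
    exact C.add_mem (C.smul_mem a hc) (hlt.le hc')
  rcases hmax Y hYst le_sup_right hYC with h | h
  · rw [← h]
    exact (hmemY _).2 ⟨x, hx, 0, C'.zero_mem, (add_zero _).symm⟩
  · exfalso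
    have key : ∀ n : ℕ, ∀ y ∈ C, ∃ c ∈ C, ∃ c' ∈ C', y = a ^ n • c + c' := by
      intro n
      induction n with
      | zero => exact fun y hy => ⟨y, hy, 0, C'.zero_mem, by simp⟩
      | succ n ih =>
        intro y hy
        obtain ⟨c, hc, c', hc', rfl⟩ := ih y hy
        obtain ⟨d, hd, d', hd', rfl⟩ := (hmemY c).1 (h ▸ hc)
        refine ⟨d, hd, a ^ n • d' + c', C'.add_mem (C'.smul_mem _ hd') hc', ?_⟩
        rw [smul_add, smul_smul, ← pow_succ, add_assoc]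
    obtain ⟨n, hn⟩ := hnil
    apply hlt.not_ge
    intro y hy
    obtain ⟨c, hc, c', hc', rfl⟩ := key n y hy
    rw [hn _ (Ideal.pow_mem_pow ha n) c, zero_add]
    exact hc'

theorem aug_le_of_covBy {𝔪 : Ideal 𝕋} [𝔪.IsMaximal] (hnil : Nil 𝔪 W) {ρ : Γ →* Module.End 𝕋 W}
    {I : Subgroup Γ} {ε : Γ →* 𝕋} {t : Γ → 𝕋} {τ0 : Γ} {Wnew : Submodule 𝕋 W}
    (H : Hyp 𝔪 ρ I ε t τ0 Wnew) {C' C : Submodule 𝕋 W} (hC' : Stable ρ I C') (hC : Stable ρ I C)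
    (hlt : C' < C) (hmax : ∀ Y : Submodule 𝕋 W, Stable ρ I Y → C' ≤ Y → Y ≤ C → Y = C' ∨ Y = C)
    {x : W} (hx : x ∈ C) (hx' : x ∉ C') (hfix : ρ τ0 x - x ∈ C') : aug ρ I C ≤ C' := by
  have hm : ∀ a ∈ 𝔪, ∀ y ∈ C, a • y ∈ C' := fun a ha y hy =>
    Cov_smul_mem hnil hC' hC hlt hmax ha hy
  -- the representation on `C / C'`
  set ρI : ↥I →* Module.End 𝕋 W := ρ.comp I.subtype with hρI
  have hCI : Stable ρI ⊤ C := fun g _ y hy => hC g g.2 y hy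
  set r₁ : ↥I →* Module.End 𝕋 ↥C := resRep ρI C hCI with hr₁
  set D : Submodule 𝕋 ↥C := C'.comap C.subtype with hD
  have hmemD : ∀ y : ↥C, y ∈ D ↔ (y : W) ∈ C' := fun y => Iff.rfl
  have hDst : Stable r₁ ⊤ D := fun g _ y hy => hC' g g.2 y hy
  set r : ↥I →* Module.End 𝕋 (↥C ⧸ D) := quotRep r₁ D hDst with hr
  have hrmk : ∀ (g : ↥I) (y : ↥C), r g (Submodule.Quotient.mk y) = Submodule.Quotient.mk (r₁ g y) :=
    fun g y => rfl
  have hr₁coe : ∀ (g : ↥I) (y : ↥C), ((r₁ g y : ↥C) : W) = ρ g y := fun g y => rfl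
  have hrel : ∀ (g : ↥I) (z : ↥C ⧸ D),
      r g z + (ε.comp I.subtype) g • r g⁻¹ z = (1 + (ε.comp I.subtype) g) • z := by
    intro g z
    obtain ⟨y, rfl⟩ := Submodule.Quotient.mk_surjective D z
    rw [hrmk, hrmk, ← Submodule.Quotient.mk_smul, ← Submodule.Quotient.mk_add,
      ← Submodule.Quotient.mk_smul, Submodule.Quotient.eq, hmemD]
    have h1 : ((r₁ g y + (ε.comp I.subtype) g • r₁ g⁻¹ y - (1 + (ε.comp I.subtype) g) • y : ↥C) : W)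
        = (t g - 1 - ε g) • (y : W) := by
      have h2 := H.CH g (y : W)
      show ρ g y + ε g • ρ ((g⁻¹ : ↥I) : Γ) y - (1 + ε g) • (y : W) = _
      rw [Subgroup.coe_inv, h2, ← sub_smul]
      congr 1
      ring
    rw [h1]
    exact hm _ (H.ord g g.2) _ y.2
  have hinj : ∀ z : ↥C ⧸ D, ((ε.comp I.subtype) ⟨τ0, H.mem0⟩ - 1) • z = 0 → z = 0 := by
    intro z hz
    obtain ⟨y, rfl⟩ := Submodule.Quotient.mk_surjective D z
    rw [← Submodule.Quotient.mk_smul, Submodule.Quotient.mk_eq_zero, hmemD] at hz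
    rw [Submodule.Quotient.mk_eq_zero, hmemD]
    obtain ⟨b, i, hi, hb⟩ := Ideal.IsMaximal.exists_inv (I := 𝔪) ‹_› H.ne0
    have h1 : (y : W) = b • ((ε τ0 - 1) • (y : W)) + i • (y : W) := by
      rw [smul_smul, ← add_smul, hb, one_smul]
    rw [h1]
    exact C'.add_mem (C'.smul_mem b hz) (hm i hi _ y.2)
  have hsimple : ∀ Y : Submodule 𝕋 (↥C ⧸ D), (∀ g, ∀ y ∈ Y, r g y ∈ Y) → Y = ⊥ ∨ Y = ⊤ := by
    intro Y hY
    have hmemZ : ∀ w : W, w ∈ (Y.comap D.mkQ).map C.subtype ↔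
        ∃ y : ↥C, Submodule.Quotient.mk y ∈ Y ∧ (y : W) = w := by
      intro w
      constructor
      · rintro ⟨y, hy, rfl⟩
        exact ⟨y, hy, rfl⟩
      · rintro ⟨y, hy, rfl⟩
        exact ⟨y, hy, rfl⟩
    have hZst : Stable ρ I ((Y.comap D.mkQ).map C.subtype) := by
      intro τ hτ w hw
      obtain ⟨y, hy, rfl⟩ := (hmemZ w).1 hw
      exact (hmemZ _).2 ⟨r₁ ⟨τ, hτ⟩ y, hY ⟨τ, hτ⟩ _ hy, rfl⟩
    have hC'Z : C' ≤ (Y.comap D.mkQ).map C.subtype := by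
      intro w hw
      refine (hmemZ w).2 ⟨⟨w, hlt.le hw⟩, ?_, rfl⟩
      have : (Submodule.Quotient.mk (⟨w, hlt.le hw⟩ : ↥C) : ↥C ⧸ D) = 0 :=
        (Submodule.Quotient.mk_eq_zero D).2 hw
      rw [this]
      exact Y.zero_mem
    have hZC : (Y.comap D.mkQ).map C.subtype ≤ C := by
      intro w hw
      obtain ⟨y, -, rfl⟩ := (hmemZ w).1 hw
      exact y.2
    rcases hmax _ hZst hC'Z hZC with h | h
    · left
      rw [eq_bot_iff]
      intro z hz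
      obtain ⟨y, rfl⟩ := Submodule.Quotient.mk_surjective D z
      have h1 : (y : W) ∈ C' := by
        rw [← h]
        exact (hmemZ _).2 ⟨y, hz, rfl⟩
      exact (Submodule.Quotient.mk_eq_zero D).2 h1
    · right
      rw [eq_top_iff]
      intro z _
      obtain ⟨y, rfl⟩ := Submodule.Quotient.mk_surjective D z
      have h1 : (y : W) ∈ (Y.comap D.mkQ).map C.subtype := by
        rw [h]
        exact y.2
      obtain ⟨y₂, hy₂, he⟩ := (hmemZ _).1 h1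
      rw [← Subtype.ext he]
      exact hy₂
  have hx0 : (Submodule.Quotient.mk (⟨x, hx⟩ : ↥C) : ↥C ⧸ D) ≠ 0 := by
    intro h0
    exact hx' ((Submodule.Quotient.mk_eq_zero D).1 h0)
  have hfix' : r ⟨τ0, H.mem0⟩ (Submodule.Quotient.mk (⟨x, hx⟩ : ↥C)) =
      Submodule.Quotient.mk (⟨x, hx⟩ : ↥C) := by
    rw [hrmk, Submodule.Quotient.eq, hmemD]
    exact hfix
  have main := trivial_of_simple r (ε.comp I.subtype) hrel ⟨τ0, H.mem0⟩ hinj hsimple _ hx0 hfix'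
  rw [aug_le_iff]
  intro τ hτ y hy
  have h1 := main ⟨τ, hτ⟩ (Submodule.Quotient.mk (⟨y, hy⟩ : ↥C))
  rw [hrmk, Submodule.Quotient.eq, hmemD] at h1
  exact h1

end Fermat.Agent.S33.Alg
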