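import Mathlib

/-!
# S33 / Alg / Defs : the abstract algebraic setting of project S33 (ordinarity at `p ∥ N`)

`𝕋` a commutative ring ("Hecke algebra"), `𝔪` a maximal ideal, `W` a finite `𝕋`-module ("`J₀(N)[p^K]`"), `ρ` an action of
a group `Γ` ("`G_ℚ`") on `W` by `𝕋`-linear maps, `I ≤ Γ` ("inertia at `p`"), `ε : Γ → 𝕋` a character ("cyclotomic"),
`t : Γ → 𝕋` ("trace").

* `aug ρ I C = (I - 1) C` : the span of the `ρ τ x - x`, `τ ∈ I`, `x ∈ C`.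
* `Stable ρ I C` : `C` is stable under `I`.
* `Hyp 𝔪 ρ I ε t τ0 Wnew` : the hypotheses of the abstract theorem `alg_main` (file `Alg/Main.lean`).
* `resRep`, `quotRep` : sub- and quotient representations.
-/

set_option autoImplicit false

namespace Fermat.Agent.S33.Alg

variable {𝕋 W Γ : Type*} [CommRing 𝕋] [AddCommGroup W] [Module 𝕋 W] [Group Γ]

/-- `(I - 1) C`. -/
def aug (ρ : Γ →* Module.End 𝕋 W) (I : Subgroup Γ) (C : Submodule 𝕋 W) : Submodule 𝕋 W :=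
  Submodule.span 𝕋 {y | ∃ τ ∈ I, ∃ x ∈ C, y = ρ τ x - x}

/-- `C` is stable under `I`. -/
def Stable (ρ : Γ →* Module.End 𝕋 W) (I : Subgroup Γ) (C : Submodule 𝕋 W) : Prop :=
  ∀ τ ∈ I, ∀ x ∈ C, ρ τ x ∈ C

theorem sub_mem_aug (ρ : Γ →* Module.End 𝕋 W) {I : Subgroup Γ} {C : Submodule 𝕋 W} {τ : Γ} (hτ : τ ∈ I)
    {x : W} (hx : x ∈ C) : ρ τ x - x ∈ aug ρ I C :=
  Submodule.subset_span ⟨τ, hτ, x, hx, rfl⟩

theorem aug_le_iff (ρ : Γ →* Module.End 𝕋 W) {I : Subgroup Γ} {C C' : Submodule 𝕋 W} :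
    aug ρ I C ≤ C' ↔ ∀ τ ∈ I, ∀ x ∈ C, ρ τ x - x ∈ C' := by
  rw [aug, Submodule.span_le]
  constructor
  · intro h τ hτ x hx
    exact h ⟨τ, hτ, x, hx, rfl⟩
  · rintro h _ ⟨τ, hτ, x, hx, rfl⟩
    exact h τ hτ x hx

theorem aug_mono (ρ : Γ →* Module.End 𝕋 W) (I : Subgroup Γ) {C C' : Submodule 𝕋 W} (h : C ≤ C') :
    aug ρ I C ≤ aug ρ I C' :=
  (aug_le_iff ρ).2 fun _ hτ _ hx => sub_mem_aug ρ hτ (h hx)

theorem aug_le_self (ρ : Γ →* Module.End 𝕋 W) {I : Subgroup Γ} {C : Submodule 𝕋 W} (hC : Stable ρ I C) :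
    aug ρ I C ≤ C :=
  (aug_le_iff ρ).2 fun τ hτ x hx => C.sub_mem (hC τ hτ x hx) hx

/-- `(I - 1) C` is stable under `I` : `σ (τ - 1) x = (σ τ - 1) x - (σ - 1) x`. -/
theorem stable_aug (ρ : Γ →* Module.End 𝕋 W) (I : Subgroup Γ) (C : Submodule 𝕋 W) :
    Stable ρ I (aug ρ I C) := by
  intro σ hσ y hy
  induction hy using Submodule.span_induction with
  | mem y hy =>
    obtain ⟨τ, hτ, x, hx, rfl⟩ := hy
    have : ρ σ (ρ τ x - x) = (ρ (σ * τ) x - x) - (ρ σ x - x) := by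
      rw [map_sub, map_mul, Module.End.mul_apply]
      abel
    rw [this]
    exact Submodule.sub_mem _ (sub_mem_aug ρ (I.mul_mem hσ hτ) hx) (sub_mem_aug ρ hσ hx)
  | zero => rw [map_zero]; exact Submodule.zero_mem _
  | add x y _ _ hx hy => rw [map_add]; exact Submodule.add_mem _ hx hy
  | smul a x _ hx => rw [map_smul]; exact Submodule.smul_mem _ a hx

theorem Stable.sup {ρ : Γ →* Module.End 𝕋 W} {I : Subgroup Γ} {C C' : Submodule 𝕋 W}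
    (h : Stable ρ I C) (h' : Stable ρ I C') : Stable ρ I (C ⊔ C') := by
  intro τ hτ x hx
  obtain ⟨y, hy, z, hz, rfl⟩ := Submodule.mem_sup.1 hx
  rw [map_add]
  exact Submodule.add_mem_sup (h τ hτ y hy) (h' τ hτ z hz)

theorem Stable.inf {ρ : Γ →* Module.End 𝕋 W} {I : Subgroup Γ} {C C' : Submodule 𝕋 W}
    (h : Stable ρ I C) (h' : Stable ρ I C') : Stable ρ I (C ⊓ C') :=
  fun τ hτ x hx => ⟨h τ hτ x hx.1, h' τ hτ x hx.2⟩

theorem Stable.mono {ρ : Γ →* Module.End 𝕋 W} {I J : Subgroup Γ} {C : Submodule 𝕋 W}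
    (h : Stable ρ J C) (hIJ : I ≤ J) : Stable ρ I C :=
  fun τ hτ x hx => h τ (hIJ hτ) x hx

theorem rho_inv_apply (ρ : Γ →* Module.End 𝕋 W) (g : Γ) (x : W) : ρ g⁻¹ (ρ g x) = x := by
  rw [← Module.End.mul_apply, ← map_mul, inv_mul_cancel, map_one, Module.End.one_apply]

theorem rho_apply_inv (ρ : Γ →* Module.End 𝕋 W) (g : Γ) (x : W) : ρ g (ρ g⁻¹ x) = x := by
  rw [← Module.End.mul_apply, ← map_mul, mul_inv_cancel, map_one, Module.End.one_apply]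

/-- **The hypotheses of the abstract theorem.** -/
structure Hyp (𝔪 : Ideal 𝕋) (ρ : Γ →* Module.End 𝕋 W) (I : Subgroup Γ) (ε : Γ →* 𝕋) (t : Γ → 𝕋) (τ0 : Γ)
    (Wnew : Submodule 𝕋 W) : Prop where
  /-- Cayley--Hamilton / Eichler--Shimura : `g + ε(g) g⁻¹ = t(g)`. -/
  CH : ∀ (g : Γ) (x : W), ρ g x + ε g • ρ g⁻¹ x = t g • x
  /-- the residual representation is ordinary : `t(τ) ≡ 1 + ε(τ)` on inertia. -/
  ord : ∀ τ ∈ I, t τ - 1 - ε τ ∈ 𝔪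
  mem0 : τ0 ∈ I
  /-- `ε(τ0) ≢ 1`. -/
  ne0 : ε τ0 - 1 ∉ 𝔪
  /-- `𝔪` is not Eisenstein. -/
  nE : ∀ ψ : Γ →* 𝕋 ⧸ 𝔪,
    ∃ g, Ideal.Quotient.mk 𝔪 (t g) ≠ ψ g + Ideal.Quotient.mk 𝔪 (ε g) * ψ g⁻¹
  /-- the new part is a `𝕋[Γ]`-submodule. -/
  new : Stable ρ ⊤ Wnew
  /-- **(N')** (geometry: toric part) inertia acts through `ε` on `Wnew ∩ (I - 1) W`. -/
  N : ∀ x ∈ Wnew, x ∈ aug ρ I ⊤ → ∀ τ ∈ I, ρ τ x = ε τ • x
  /-- **(FO)** (`W / Wnew` is finite flat, Raynaud `e = 1 < p - 1`) an `I`-stable `C` with image in `(I - 1)(W / Wnew)`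
  has no nonzero quotient with trivial action modulo `Wnew`. -/
  FO : ∀ C : Submodule 𝕋 W, Stable ρ I C → C ≤ aug ρ I ⊤ ⊔ Wnew → C ≤ aug ρ I C ⊔ Wnew

/-- the sub-representation on a stable submodule. -/
def resRep (ρ : Γ →* Module.End 𝕋 W) (C : Submodule 𝕋 W) (hC : Stable ρ ⊤ C) : Γ →* Module.End 𝕋 C where
  toFun g := (ρ g).restrict (fun x hx => hC g (Subgroup.mem_top g) x hx)
  map_one' := by
    ext x
    simp
  map_mul' g h := by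
    ext x
    simp

@[simp] theorem coe_resRep_apply (ρ : Γ →* Module.End 𝕋 W) (C : Submodule 𝕋 W) (hC : Stable ρ ⊤ C) (g : Γ)
    (x : C) : ((resRep ρ C hC g x : C) : W) = ρ g x := rfl

/-- the quotient representation by a stable submodule. -/
def quotRep (ρ : Γ →* Module.End 𝕋 W) (C : Submodule 𝕋 W) (hC : Stable ρ ⊤ C) :
    Γ →* Module.End 𝕋 (W ⧸ C) where
  toFun g := C.mapQ C (ρ g) (fun x hx => hC g (Subgroup.mem_top g) x hx)
  map_one' := by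
    ext x
    simp
  map_mul' g h := by
    ext x
    simp

@[simp] theorem quotRep_mk (ρ : Γ →* Module.End 𝕋 W) (C : Submodule 𝕋 W) (hC : Stable ρ ⊤ C) (g : Γ)
    (x : W) : quotRep ρ C hC g (Submodule.Quotient.mk x) = Submodule.Quotient.mk (ρ g x) := rfl

end Fermat.Agent.S33.Alg
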