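import Fermat.Agent.GAL.ALG.HeckeCorr
import Fermat.Agent.S32.Alg.Tensor

/-!
# S33 / block ALG / file HeckeCorr: the ring of Hecke correspondences with its induction principle

`exists_heckeCorr'` = `GAL.exists_heckeCorr` + the clause `Φ x ∈ Subring.closure (goodT D S)`.
`stable_alphaHom` : an additive subgroup of `(ℤ/p^K)^r` which is stable under the `D.T ℓ` (`ℓ` good) is stable under
`ℤ_p ⊗ C`.
-/

set_option autoImplicit false

namespace Fermat.Agent.S33.Alg

open Fermat.Agent.GAL Fermat.Agent.S32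
open scoped TensorProduct

/-- The good Hecke matrices. -/
def goodT {N M p : ℕ} [NeZero N] [Fact p.Prime] (D : ESDatumAt N M p) (S : Set ℕ) :
    Set (Matrix (Fin D.r) (Fin D.r) ℤ) :=
  {X | ∃ ℓ : ℕ, ℓ.Prime ∧ ¬ ℓ ∣ N ∧ ℓ ∉ S ∧ ¬ ℓ ∣ M ∧ X = D.T ℓ}

theorem exists_heckeCorr' {N M p : ℕ} [NeZero N] [Fact p.Prime] (D : ESDatumAt N M p) (S : Set ℕ) :
    ∃ (C : Type) (_ : CommRing C) (Φ : C →+* Matrix (Fin D.r) (Fin D.r) ℤ)
      (Ψ : C →+* CuspForm.heckeAlgebra N 2 S),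
      Function.Injective Φ ∧
      (∀ (x : C) (σ : GQ), D.ρ σ * (Φ x).map (Int.castRingHom ℤ_[p]) =
        (Φ x).map (Int.castRingHom ℤ_[p]) * D.ρ σ) ∧
      (∀ (ℓ : ℕ) (hℓ : ℓ.Prime) (hℓN : ¬ ℓ ∣ N) (hℓS : ℓ ∉ S), ¬ ℓ ∣ M →
        ∃ x : C, Φ x = D.T ℓ ∧ Ψ x = CuspForm.heckeAlgebra.T hℓ hℓN hℓS) ∧
      (∀ x : C, Φ x ∈ Subring.closure (goodT D S)) := by
  refine ⟨Subring.closure (heckeCorrGens D S),
    Subring.closureCommRingOfComm (heckeCorrGens_comm D S),
    (RingHom.fst _ _).comp (Subring.subtype _), (RingHom.snd _ _).comp (Subring.subtype _),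
    ?_, ?_, ?_, ?_⟩
  · rintro ⟨x, hx⟩ ⟨y, hy⟩ h
    have h1 : x.1 = y.1 := h
    apply Subtype.ext
    refine Prod.ext h1 ?_
    apply Subtype.ext
    apply LinearMap.ext
    intro f
    apply D.per_injective
    rw [heckeCorr_per D S x hx f, heckeCorr_per D S y hy f, h1]
  · rintro ⟨x, hx⟩ σ
    exact heckeCorr_rho D S x hx σ
  · intro ℓ hℓ hℓN hℓS hM
    exact ⟨⟨(D.T ℓ, CuspForm.heckeAlgebra.T hℓ hℓN hℓS),
      Subring.subset_closure ⟨ℓ, hℓ, hℓN, hℓS, hM, rfl⟩⟩, rfl, rfl⟩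
  · rintro ⟨x, hx⟩
    change x.1 ∈ Subring.closure (goodT D S)
    induction hx using Subring.closure_induction with
    | mem x hx =>
      obtain ⟨ℓ, hℓ, hℓN, hℓS, hM, rfl⟩ := hx
      exact Subring.subset_closure ⟨ℓ, hℓ, hℓN, hℓS, hM, rfl⟩
    | zero => exact Subring.zero_mem _
    | one => exact Subring.one_mem _
    | add x y _ _ hx hy => exact Subring.add_mem _ hx hy
    | neg x _ hx => exact Subring.neg_mem _ hx
    | mul x y _ _ hx hy => exact Subring.mul_mem _ hx hy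

/-- Scalars of `ZMod n` preserve additive subgroups. -/
theorem zmod_smul_mem {n : ℕ} {X : Type*} [AddCommGroup X] [Module (ZMod n) X] (U : AddSubgroup X)
    (a : ZMod n) {x : X} (hx : x ∈ U) : a • x ∈ U := by
  obtain ⟨k, rfl⟩ := ZMod.intCast_surjective a
  rw [Int.cast_smul_eq_zsmul]
  exact U.zsmul_mem hx k

/-- Stability under a set of integral matrices implies stability under the subring they generate. -/
theorem stable_closure {r n : ℕ} (G : Set (Matrix (Fin r) (Fin r) ℤ)) (U : AddSubgroup (Fin r → ZMod n))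
    (hU : ∀ X ∈ G, ∀ x ∈ U, (X.map (Int.castRingHom (ZMod n))).mulVec x ∈ U)
    {Y : Matrix (Fin r) (Fin r) ℤ} (hY : Y ∈ Subring.closure G) :
    ∀ x ∈ U, (Y.map (Int.castRingHom (ZMod n))).mulVec x ∈ U := by
  have hmap : ∀ Z : Matrix (Fin r) (Fin r) ℤ,
      Z.map (Int.castRingHom (ZMod n)) = (Int.castRingHom (ZMod n)).mapMatrix Z := fun _ => rfl
  induction hY using Subring.closure_induction with
  | mem X hX => exact hU X hX
  | zero =>
    intro x _
    rw [hmap, map_zero, Matrix.zero_mulVec]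
    exact U.zero_mem
  | one =>
    intro x hx
    rw [hmap, map_one, Matrix.one_mulVec]
    exact hx
  | add X Y _ _ hX hY =>
    intro x hx
    rw [hmap, map_add, Matrix.add_mulVec]
    exact U.add_mem (hX x hx) (hY x hx)
  | neg X _ hX =>
    intro x hx
    rw [hmap, map_neg, Matrix.neg_mulVec]
    exact U.neg_mem (hX x hx)
  | mul X Y _ _ hX hY =>
    intro x hx
    rw [hmap, map_mul, ← Matrix.mulVec_mulVec]
    exact hX _ (hY x hx)

/-- Reduction modulo `p^K` of the action of `o ⊗ c`. -/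
theorem mapMatrix_alphaHom_tmul {p r : ℕ} [Fact p.Prime] {C : Type} [CommRing C]
    (Φ : C →+* Matrix (Fin r) (Fin r) ℤ) (K : ℕ) (o : ℤ_[p]) (c : C) :
    (PadicInt.toZModPow K).mapMatrix (alphaHom ℤ_[p] Φ (o ⊗ₜ c)) =
      PadicInt.toZModPow K o • (Φ c).map (Int.castRingHom (ZMod (p ^ K))) := by
  rw [alphaHom_tmul]
  ext i j
  simp

/-- An additive subgroup of `(ℤ/p^K)^r` stable under the generators is stable under `ℤ_p ⊗ C`. -/
theorem stable_alphaHom {p r : ℕ} [Fact p.Prime] {C : Type} [CommRing C]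
    (Φ : C →+* Matrix (Fin r) (Fin r) ℤ) (G : Set (Matrix (Fin r) (Fin r) ℤ))
    (hcl : ∀ x : C, Φ x ∈ Subring.closure G) (K : ℕ) (U : AddSubgroup (Fin r → ZMod (p ^ K)))
    (hU : ∀ X ∈ G, ∀ x ∈ U, (X.map (Int.castRingHom (ZMod (p ^ K)))).mulVec x ∈ U)
    (e : ℤ_[p] ⊗[ℤ] C) :
    ∀ x ∈ U, ((PadicInt.toZModPow K).mapMatrix (alphaHom ℤ_[p] Φ e)).mulVec x ∈ U := by
  induction e using TensorProduct.induction_on with
  | zero =>
    intro x _
    rw [map_zero, map_zero, Matrix.zero_mulVec]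
    exact U.zero_mem
  | tmul o c =>
    intro x hx
    rw [mapMatrix_alphaHom_tmul, Matrix.smul_mulVec]
    exact zmod_smul_mem U _ (stable_closure G U hU (hcl c) x hx)
  | add a b ha hb =>
    intro x hx
    rw [map_add, map_add, Matrix.add_mulVec]
    exact U.add_mem (ha x hx) (hb x hx)

end Fermat.Agent.S33.Alg
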