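import Fermat.Agent.S33.Alg.Cov

/-!
# S33 / Alg / InjQ  (leaf ALG-C, pure Mathlib)

`τ0 - 1` is injective on `(I - 1)(W / Wnew)`.

## Proof
Let `𝒮` be the set of submodules `C` with : `Stable ρ I C`, `Wnew ≤ C ≤ aug ρ I ⊤ ⊔ Wnew`, and
`∃ x ∈ C, x ∉ Wnew ∧ ρ τ0 x - x ∈ Wnew`.  If the statement fails, `aug ρ I ⊤ ⊔ Wnew ∈ 𝒮` (`stable_aug`, `Stable.sup`,
`H.new.mono le_top`).  `Submodule 𝕋 W` is finite : take `C ∈ 𝒮` minimal, with witness `x`.  The set of stable `C'` with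
`Wnew ≤ C' < C` is nonempty (`Wnew`, as `x ∈ C \ Wnew`) : take `C'` maximal.  By minimality of `C`, `C' ∉ 𝒮`, so `x ∉ C'`.
`ρ τ0 x - x ∈ Wnew ≤ C'`.  By `aug_le_of_covBy` : `aug ρ I C ≤ C'`, so `aug ρ I C ⊔ Wnew ≤ C' < C`, contradicting `H.FO C`.
-/

set_option autoImplicit false

namespace Fermat.Agent.S33.Alg

variable {𝕋 W Γ : Type*} [CommRing 𝕋] [AddCommGroup W] [Module 𝕋 W] [Group Γ]

theorem mem_new_of_fix [Finite W] {𝔪 : Ideal 𝕋} [𝔪.IsMaximal] (hnil : Nil 𝔪 W)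
    {ρ : Γ →* Module.End 𝕋 W} {I : Subgroup Γ} {ε : Γ →* 𝕋} {t : Γ → 𝕋} {τ0 : Γ} {Wnew : Submodule 𝕋 W}
    (H : Hyp 𝔪 ρ I ε t τ0 Wnew) {x : W} (hx : x ∈ aug ρ I ⊤ ⊔ Wnew) (hfix : ρ τ0 x - x ∈ Wnew) :
    x ∈ Wnew := by
  by_contra hxn
  have hfin : Finite (Submodule 𝕋 W) :=
    Finite.of_injective (fun S : Submodule 𝕋 W => (S : Set W)) SetLike.coe_injective
  have hnew : Stable ρ I Wnew := H.new.mono le_top
  obtain ⟨C, ⟨hCs, hWC, hCle, y, hyC, hyn, hyfix⟩, hmin⟩ :=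
    (wellFounded_lt (α := Submodule 𝕋 W)).has_min
      {C | Stable ρ I C ∧ Wnew ≤ C ∧ C ≤ aug ρ I ⊤ ⊔ Wnew ∧
        ∃ x ∈ C, x ∉ Wnew ∧ ρ τ0 x - x ∈ Wnew}
      ⟨aug ρ I ⊤ ⊔ Wnew, (stable_aug ρ I ⊤).sup hnew, le_sup_right, le_refl _, x, hx, hxn, hfix⟩
  obtain ⟨C', ⟨hC's, hWC', hlt⟩, hmax⟩ :=
    (wellFounded_gt (α := Submodule 𝕋 W)).has_min
      {C' | Stable ρ I C' ∧ Wnew ≤ C' ∧ C' < C}
      ⟨Wnew, hnew, le_refl _, lt_of_le_of_ne hWC (fun h => hyn (h ▸ hyC))⟩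
  have hyC' : y ∉ C' := fun hy =>
    hmin C' ⟨hC's, hWC', hlt.le.trans hCle, y, hy, hyn, hyfix⟩ hlt
  have h1 : aug ρ I C ≤ C' := by
    refine aug_le_of_covBy hnil H hC's hCs hlt (fun Y hY hC'Y hYC => ?_) hyC hyC' (hWC' hyfix)
    by_cases hYC' : Y = C
    · exact Or.inr hYC'
    · left
      by_contra hne
      exact hmax Y ⟨hY, hWC'.trans hC'Y, lt_of_le_of_ne hYC hYC'⟩
        (lt_of_le_of_ne hC'Y (fun h => hne h.symm))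
  have h2 : C ≤ C' := (H.FO C hCs hCle).trans (sup_le h1 hWC')
  exact absurd hlt (not_lt_of_ge h2)

/-- `τ0 - 1` is injective on `(I - 1) W`. -/
theorem eq_zero_of_fix [Finite W] {𝔪 : Ideal 𝕋} [𝔪.IsMaximal] (hnil : Nil 𝔪 W)
    {ρ : Γ →* Module.End 𝕋 W} {I : Subgroup Γ} {ε : Γ →* 𝕋} {t : Γ → 𝕋} {τ0 : Γ} {Wnew : Submodule 𝕋 W}
    (H : Hyp 𝔪 ρ I ε t τ0 Wnew) {x : W} (hx : x ∈ aug ρ I ⊤) (hfix : ρ τ0 x = x) : x = 0 := by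
  have h1 : x ∈ Wnew := mem_new_of_fix hnil H (Submodule.mem_sup_left hx) (by
    rw [hfix, sub_self]
    exact Wnew.zero_mem)
  have h2 := H.N x h1 hx τ0 H.mem0
  apply eq_zero_of_smul_eq_zero hnil H.ne0
  rw [sub_smul, one_smul, ← h2, hfix, sub_self]

end Fermat.Agent.S33.Alg
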