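import Fermat.Agent.S33.Alg.Trace

/-!
# S33 / Alg / Local  (leaf ALG-F, pure Mathlib)

The abstract theorem for an `𝔪`-primary module : `I` acts through `ε` on `(I - 1) W`.

## Proof
By `trace_exact` and `H.CH` : `ρ g x + ε g • ρ g⁻¹ x = (1 + ε g) • x` for `g ∈ I`.  `A0 = ρ τ0`, `c0 = ε τ0`.
1. for `y ∈ aug ρ I ⊤` : `A0 y = c0 • y`.  [`z := A0 y - c0 • y ∈ aug ρ I ⊤` (`stable_aug`), `A0 z = z` by the relation for `τ0` applied to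
   `A0 y`; `eq_zero_of_fix`.]  Hence `c0 • ρ τ0⁻¹ y = y`.
2. for `τ ∈ I`, `y ∈ aug ρ I ⊤` : the relation for `τ * τ0 ∈ I` at `y` :
   `ρ τ (A0 y) + ε τ • c0 • ρ τ0⁻¹ (ρ τ⁻¹ y) = (1 + ε τ c0) • y`; `ρ τ⁻¹ y ∈ aug ρ I ⊤`, so this is
   `c0 • ρ τ y + ε τ • ρ τ⁻¹ y = (1 + ε τ c0) • y`; subtract the relation for `τ` :
   `(c0 - 1) • ρ τ y = (c0 - 1) • ε τ • y`; `eq_of_smul_eq_smul hnil H.ne0`.
-/

set_option autoImplicit false

namespace Fermat.Agent.S33.Alg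

variable {𝕋 W Γ : Type*} [CommRing 𝕋] [AddCommGroup W] [Module 𝕋 W] [Group Γ]

theorem alg_local [Finite W] {𝔪 : Ideal 𝕋} [𝔪.IsMaximal] (hnil : Nil 𝔪 W)
    {ρ : Γ →* Module.End 𝕋 W} {I : Subgroup Γ} {ε : Γ →* 𝕋} {t : Γ → 𝕋} {τ0 : Γ} {Wnew : Submodule 𝕋 W}
    (H : Hyp 𝔪 ρ I ε t τ0 Wnew) {τ : Γ} (hτ : τ ∈ I) {y : W} (hy : y ∈ aug ρ I ⊤) :
    ρ τ y = ε τ • y := by
  have rel : ∀ g ∈ I, ∀ x : W, ρ g x + ε g • ρ g⁻¹ x = (1 + ε g) • x := by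
    intro g hg x
    have h1 := H.CH g x
    have h2 := trace_exact hnil H hg x
    linear_combination (norm := module) h1 + h2
  have step1 : ∀ y ∈ aug ρ I ⊤, ρ τ0 y = ε τ0 • y := by
    intro y hy
    have hz : ρ τ0 y - ε τ0 • y ∈ aug ρ I ⊤ :=
      Submodule.sub_mem _ (stable_aug ρ I ⊤ τ0 H.mem0 y hy) (Submodule.smul_mem _ _ hy)
    have h1 := rel τ0 H.mem0 (ρ τ0 y)
    rw [rho_inv_apply] at h1
    have h2 : ρ τ0 (ρ τ0 y - ε τ0 • y) = ρ τ0 y - ε τ0 • y := by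
      rw [map_sub, map_smul]
      linear_combination (norm := module) h1
    exact sub_eq_zero.1 (eq_zero_of_fix hnil H hz h2)
  have step1' : ∀ y ∈ aug ρ I ⊤, ε τ0 • ρ τ0⁻¹ y = y := by
    intro y hy
    have h1 := rel τ0 H.mem0 y
    rw [step1 y hy] at h1
    linear_combination (norm := module) h1
  have h1 := rel (τ * τ0) (I.mul_mem hτ H.mem0) y
  rw [map_mul, map_mul, mul_inv_rev, map_mul, Module.End.mul_apply, Module.End.mul_apply,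
    step1 y hy, map_smul, mul_smul,
    step1' _ (stable_aug ρ I ⊤ τ⁻¹ (I.inv_mem hτ) y hy)] at h1
  have h2 := rel τ hτ y
  apply eq_of_smul_eq_smul hnil H.ne0
  linear_combination (norm := module) h1 - h2

end Fermat.Agent.S33.Alg
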