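import Fermat.Agent.S33.Alg.Tors

/-!
# S33 / Alg / Localizer  (leaf ALG-L0, pure Mathlib)
-/

set_option autoImplicit false

namespace Fermat.Agent.S33.Alg

variable {𝕋 W Γ : Type*} [CommRing 𝕋] [AddCommGroup W] [Module 𝕋 W] [Group Γ]

/-- **Leaf ALG-L0.**  The chain `𝔪 ^ n • ⊤` of submodules of the finite module `W` is stationary : `𝔪 • N = N` for
`N = 𝔪 ^ n • ⊤`; `N` is finitely generated (finite), so by
`Submodule.exists_sub_one_mem_and_smul_eq_zero_of_fg_of_le_smul` there is `e` with `e - 1 ∈ 𝔪` and `e • N = 0`. -/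
theorem exists_localizer [Finite W] (𝔪 : Ideal 𝕋) [𝔪.IsMaximal] :
    ∃ e : 𝕋, e ∉ 𝔪 ∧ ∃ n : ℕ, ∀ x : W, e • x ∈ tors (𝔪 ^ n) W := by
  have hart : IsArtinian 𝕋 W := inferInstance
  have hnoe : IsNoetherian 𝕋 W := inferInstance
  have hanti : Antitone (fun n : ℕ => (𝔪 ^ n • (⊤ : Submodule 𝕋 W) : Submodule 𝕋 W)) :=
    fun a b hab => Submodule.smul_mono_left (Ideal.pow_le_pow_right hab)
  obtain ⟨n, hn⟩ := IsArtinian.monotone_stabilizes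
    (⟨fun n : ℕ => OrderDual.toDual (𝔪 ^ n • (⊤ : Submodule 𝕋 W) : Submodule 𝕋 W),
      fun a b hab => hanti hab⟩ : ℕ →o (Submodule 𝕋 W)ᵒᵈ)
  have h1 : (𝔪 ^ n • (⊤ : Submodule 𝕋 W) : Submodule 𝕋 W) = 𝔪 ^ (n + 1) • (⊤ : Submodule 𝕋 W) :=
    OrderDual.toDual.injective (hn (n + 1) (Nat.le_succ n))
  have h2 : (𝔪 ^ n • (⊤ : Submodule 𝕋 W) : Submodule 𝕋 W) ≤
      𝔪 • (𝔪 ^ n • (⊤ : Submodule 𝕋 W) : Submodule 𝕋 W) := by
    rw [← Submodule.mul_smul, ← pow_succ', ← h1]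
  obtain ⟨e, he, heN⟩ := Submodule.exists_sub_one_mem_and_smul_eq_zero_of_fg_of_le_smul 𝔪 _
    (IsNoetherian.noetherian _) h2
  refine ⟨e, fun hem => ?_, n, fun x a ha => ?_⟩
  · have h3 : (1 : 𝕋) ∈ 𝔪 := by
      have := 𝔪.sub_mem hem he
      rwa [sub_sub_cancel] at this
    exact (Ideal.IsMaximal.ne_top ‹_›) ((Ideal.eq_top_iff_one 𝔪).2 h3)
  · rw [smul_comm]
    exact heN _ (Submodule.smul_mem_smul ha Submodule.mem_top)

end Fermat.Agent.S33.Alg
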