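import Fermat.Agent.S33.Alg.Tors

/-!
# S33 / Alg / Restrict  (leaf ALG-L1, pure Mathlib)
-/

set_option autoImplicit false

namespace Fermat.Agent.S33.Alg

variable {𝕋 W Γ : Type*} [CommRing 𝕋] [AddCommGroup W] [Module 𝕋 W] [Group Γ]

theorem Restrict_map_aug (ρ : Γ →* Module.End 𝕋 W) (D : Submodule 𝕋 W) (hD : Stable ρ ⊤ D)
    (I : Subgroup Γ) (C : Submodule 𝕋 D) :
    (aug (resRep ρ D hD) I C).map D.subtype = aug ρ I (C.map D.subtype) := by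
  rw [aug, aug, Submodule.map_span]
  congr 1
  ext y
  constructor
  · rintro ⟨_, ⟨τ, hτ, x, hx, rfl⟩, rfl⟩
    exact ⟨τ, hτ, x.1, ⟨x, hx, rfl⟩, rfl⟩
  · rintro ⟨τ, hτ, _, ⟨x, hx, rfl⟩, rfl⟩
    exact ⟨resRep ρ D hD τ x - x, ⟨τ, hτ, x, hx, rfl⟩, rfl⟩

theorem Restrict_coe_mem_aug (ρ : Γ →* Module.End 𝕋 W) (D : Submodule 𝕋 W) (hD : Stable ρ ⊤ D)
    (I : Subgroup Γ) {x : D} (hx : x ∈ aug (resRep ρ D hD) I ⊤) : x.1 ∈ aug ρ I ⊤ := by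
  have h1 : x.1 ∈ (aug (resRep ρ D hD) I ⊤).map D.subtype := ⟨x, hx, rfl⟩
  rw [Restrict_map_aug] at h1
  exact aug_mono ρ I le_top h1

/-- **Leaf ALG-L1.**  `CH`, `ord`, `mem0`, `ne0`, `nE`, `new` are immediate.  Put `D = tors J W`, `ι = D.subtype`.
Key fact : `(aug (resRep ρ D _) I C).map ι = aug ρ I (C.map ι)` (`Submodule.map_span`).
`N` : `x ∈ aug_D ⊤ ⟹ ι x ∈ aug ρ I ⊤` (`aug_mono`).
`FO` : `C ≤ D` stable, `C ≤ aug_D ⊤ ⊔ Wnew_D`; then `C.map ι` is stable and `≤ aug ρ I ⊤ ⊔ Wnew`, so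
`C.map ι ≤ aug ρ I (C.map ι) ⊔ Wnew`; for `x ∈ C` write `ι x = y + z`; `y ∈ aug ρ I (C.map ι) = (aug_D C).map ι`, so `y = ι y'`, and
`z = ι (x - y')` with `x - y' ∈ Wnew.comap ι`. -/
theorem Hyp.restrict {𝔪 : Ideal 𝕋} {ρ : Γ →* Module.End 𝕋 W} {I : Subgroup Γ} {ε : Γ →* 𝕋} {t : Γ → 𝕋}
    {τ0 : Γ} {Wnew : Submodule 𝕋 W} (H : Hyp 𝔪 ρ I ε t τ0 Wnew) (J : Ideal 𝕋) :
    Hyp 𝔪 (resRep ρ (tors J W) (stable_tors ρ J)) I ε t τ0 (Wnew.comap (tors J W).subtype) := by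
  have hD := stable_tors (W := W) ρ J
  refine ⟨fun g x => ?_, H.ord, H.mem0, H.ne0, H.nE, ?_, ?_, ?_⟩
  · apply Subtype.ext
    exact H.CH g x.1
  · intro g hg x hx
    exact H.new g hg x.1 hx
  · intro x hx hxa τ hτ
    apply Subtype.ext
    exact H.N x.1 hx (Restrict_coe_mem_aug ρ _ hD I hxa) τ hτ
  · intro C hC hle x hx
    have hC' : Stable ρ I (C.map (tors J W).subtype) := by
      rintro τ hτ _ ⟨y, hy, rfl⟩
      exact ⟨resRep ρ _ hD τ y, hC τ hτ y hy, rfl⟩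
    have hle' : C.map (tors J W).subtype ≤ aug ρ I ⊤ ⊔ Wnew := by
      rintro _ ⟨y, hy, rfl⟩
      obtain ⟨u, hu, v, hv, huv⟩ := Submodule.mem_sup.1 (hle hy)
      rw [← huv]
      exact Submodule.add_mem_sup (Restrict_coe_mem_aug ρ _ hD I hu) hv
    have h2 := H.FO _ hC' hle' ⟨x, hx, rfl⟩
    obtain ⟨y, hy, z, hz, hyz⟩ := Submodule.mem_sup.1 h2
    rw [← Restrict_map_aug ρ _ hD] at hy
    obtain ⟨y', hy', rfl⟩ := hy
    have e : x = y' + (x - y') := by abel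
    rw [e]
    refine Submodule.add_mem_sup hy' ?_
    show (x - y').1 ∈ Wnew
    have e2 : (x - y').1 = z := by
      show x.1 - y'.1 = z
      rw [sub_eq_iff_eq_add']
      exact hyz.symm
    rw [e2]
    exact hz

end Fermat.Agent.S33.Alg
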