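import Fermat.Agent.S33.Alg.Local
import Fermat.Agent.S33.Alg.Localizer
import Fermat.Agent.S33.Alg.Restrict

/-!
# S33 / Alg / Main : the abstract theorem (localisation at `𝔪`)

`alg_main` : `∃ e ∉ 𝔪, e (τ - ε τ) (I - 1) W = 0`.
-/

set_option autoImplicit false

namespace Fermat.Agent.S33.Alg

variable {𝕋 W Γ : Type*} [CommRing 𝕋] [AddCommGroup W] [Module 𝕋 W] [Group Γ]

/-- `e • (I - 1) W ⊆ (I - 1) (e • W)`. -/
theorem smul_mem_aug_tors (ρ : Γ →* Module.End 𝕋 W) (I : Subgroup Γ) (J : Ideal 𝕋) {e : 𝕋}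
    (he : ∀ x : W, e • x ∈ tors J W) {y : W} (hy : y ∈ aug ρ I ⊤) :
    (⟨e • y, he y⟩ : tors J W) ∈ aug (resRep ρ (tors J W) (stable_tors ρ J)) I ⊤ := by
  induction hy using Submodule.span_induction with
  | mem y hy =>
    obtain ⟨τ, hτ, x, -, rfl⟩ := hy
    have : (⟨e • (ρ τ x - x), he _⟩ : tors J W) =
        resRep ρ (tors J W) (stable_tors ρ J) τ ⟨e • x, he x⟩ - ⟨e • x, he x⟩ := by
      apply Subtype.ext
      simp [smul_sub]
    rw [this]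
    exact sub_mem_aug _ hτ Submodule.mem_top
  | zero =>
    have : (⟨e • (0 : W), he _⟩ : tors J W) = 0 := Subtype.ext (smul_zero e)
    rw [this]
    exact Submodule.zero_mem _
  | add x y _ _ hx hy =>
    have : (⟨e • (x + y), he _⟩ : tors J W) = ⟨e • x, he x⟩ + ⟨e • y, he y⟩ :=
      Subtype.ext (smul_add e x y)
    rw [this]
    exact Submodule.add_mem _ hx hy
  | smul a x _ hx =>
    have : (⟨e • (a • x), he _⟩ : tors J W) = a • ⟨e • x, he x⟩ := Subtype.ext (smul_comm e a x)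
    rw [this]
    exact Submodule.smul_mem _ a hx

/-- **The abstract theorem of project S33.** -/
theorem alg_main [Finite W] {𝔪 : Ideal 𝕋} [𝔪.IsMaximal] {ρ : Γ →* Module.End 𝕋 W} {I : Subgroup Γ}
    {ε : Γ →* 𝕋} {t : Γ → 𝕋} {τ0 : Γ} {Wnew : Submodule 𝕋 W} (H : Hyp 𝔪 ρ I ε t τ0 Wnew) :
    ∃ e : 𝕋, e ∉ 𝔪 ∧ ∀ τ ∈ I, ∀ y ∈ aug ρ I ⊤, e • (ρ τ y - ε τ • y) = 0 := by
  obtain ⟨e, he, n, hn⟩ := exists_localizer (W := W) 𝔪
  refine ⟨e, he, fun τ hτ y hy => ?_⟩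
  have h1 := alg_local (nil_tors 𝔪 n) (H.restrict (𝔪 ^ n)) hτ (smul_mem_aug_tors ρ I (𝔪 ^ n) hn hy)
  have h2 := congrArg Subtype.val h1
  simp only [coe_resRep_apply, Submodule.coe_smul] at h2
  rw [smul_sub, ← map_smul, h2, smul_comm, sub_self]

end Fermat.Agent.S33.Alg
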