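import Mathlib
import Fermat.Prelude.Def_GaloisRep_LocalConditions

/-!
# S33 / block ALG / file Ord: from the relation `(ρ τ₀ - c)(ρ τ - 1) = 0` to the ordinary line

Pure linear algebra over a local ring (step 5 of report 291, step S6 of report 294).
-/

set_option autoImplicit false

namespace Fermat.Agent.S33.Alg

theorem exists_basis_of_unit0 {T V : Type} [CommRing T] [AddCommGroup V] [Module T V]
    (b : Module.Basis (Fin 2) T V) (α β : T) (hα : IsUnit α) :
    ∃ b' : Module.Basis (Fin 2) T V, b' 0 = α • b 0 + β • b 1 := by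
  have hdet : IsUnit (LinearMap.toMatrix b b (b.constr T ![α • b 0 + β • b 1, b 1])).det := by
    rw [Matrix.det_fin_two]
    simp [LinearMap.toMatrix_apply, hα]
  refine ⟨b.map (LinearEquiv.ofIsUnitDet hdet), ?_⟩
  simp

theorem exists_basis_of_unit1 {T V : Type} [CommRing T] [AddCommGroup V] [Module T V]
    (b : Module.Basis (Fin 2) T V) (α β : T) (hβ : IsUnit β) :
    ∃ b' : Module.Basis (Fin 2) T V, b' 0 = α • b 0 + β • b 1 := by
  obtain ⟨b', hb'⟩ := exists_basis_of_unit0 (b.reindex (Equiv.swap 0 1)) β α hβ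
  refine ⟨b', ?_⟩
  rw [hb', add_comm]
  simp

/-- Linear algebra: an endomorphism `A0` of a free module of rank two over a local ring with
`(A0 - c)(A0 - 1) = 0`, `det A0 = c`, `c` and `c - 1` units: `ker (A0 - c)` is spanned by the first
vector of a basis. -/
theorem exists_basis_ker {T V : Type} [CommRing T] [IsLocalRing T] [AddCommGroup V] [Module T V]
    (b : Module.Basis (Fin 2) T V) (A0 : Module.End T V) (c : T) (hc1 : IsUnit (c - 1))
    (hc : IsUnit c) (hdet : LinearMap.det A0 = c) (hq : (A0 - c • 1) * (A0 - 1) = 0) :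
    ∃ b' : Module.Basis (Fin 2) T V, LinearMap.ker (A0 - c • (1 : Module.End T V)) = T ∙ b' 0 := by
  obtain ⟨M, hM⟩ : ∃ M : Matrix (Fin 2) (Fin 2) T, M = LinearMap.toMatrixAlgEquiv b A0 := ⟨_, rfl⟩
  have hMq : (M - c • 1) * (M - 1) = 0 := by
    have := congrArg (LinearMap.toMatrixAlgEquiv b) hq
    rw [map_mul, map_sub, map_sub, map_smul, map_one, map_zero, ← hM] at this
    exact this
  have hMdet : M.det = c := by
    rw [hM, LinearMap.toMatrixAlgEquiv, ← hdet]
    exact LinearMap.det_toMatrix b A0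
  obtain ⟨x, hx⟩ : ∃ x, x = M 0 0 := ⟨_, rfl⟩
  obtain ⟨y, hy⟩ : ∃ y, y = M 0 1 := ⟨_, rfl⟩
  obtain ⟨z, hz⟩ : ∃ z, z = M 1 0 := ⟨_, rfl⟩
  obtain ⟨w, hw⟩ : ∃ w, w = M 1 1 := ⟨_, rfl⟩
  have e00 : (x - c) * (x - 1) + y * z = 0 := by
    have := congrFun (congrFun hMq 0) 0
    simpa [Matrix.mul_apply, Fin.sum_univ_two, ← hx, ← hy, ← hz, ← hw] using this
  have e01 : (x - c) * y + y * (w - 1) = 0 := by
    have := congrFun (congrFun hMq 0) 1
    simpa [Matrix.mul_apply, Fin.sum_univ_two, ← hx, ← hy, ← hz, ← hw] using this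
  have e10 : z * (x - 1) + (w - c) * z = 0 := by
    have := congrFun (congrFun hMq 1) 0
    simpa [Matrix.mul_apply, Fin.sum_univ_two, ← hx, ← hy, ← hz, ← hw] using this
  have e11 : z * y + (w - c) * (w - 1) = 0 := by
    have := congrFun (congrFun hMq 1) 1
    simpa [Matrix.mul_apply, Fin.sum_univ_two, ← hx, ← hy, ← hz, ← hw] using this
  have ed : x * w - y * z = c := by
    rw [Matrix.det_fin_two, ← hx, ← hy, ← hz, ← hw] at hMdet
    exact hMdet
  -- the trace is `c + 1`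
  have hs : x + w - c - 1 = 0 := by
    have hxs : x * (x + w - c - 1) = 0 := by linear_combination e00 + ed
    have hys : y * (x + w - c - 1) = 0 := by linear_combination e01
    have h1 : (x + w - c - 1) * c = 0 := by
      linear_combination (-(x + w - c - 1)) * ed + w * hxs - z * hys
    exact (hc.mul_left_eq_zero).1 h1
  have hdet1 : (x - 1) * (w - 1) = y * z := by linear_combination ed - hs
  obtain ⟨u, hu⟩ := hc1.exists_left_inv
  -- action on the basis
  have hA0 : A0 (b 0) = x • b 0 + z • b 1 := by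
    rw [← b.sum_repr (A0 (b 0)), Fin.sum_univ_two, hx, hz, hM]
    simp [LinearMap.toMatrixAlgEquiv_apply]
  have hA1 : A0 (b 1) = y • b 0 + w • b 1 := by
    rw [← b.sum_repr (A0 (b 1)), Fin.sum_univ_two, hy, hw, hM]
    simp [LinearMap.toMatrixAlgEquiv_apply]
  have hmemker : ∀ v : V, v ∈ LinearMap.ker (A0 - c • (1 : Module.End T V)) ↔ A0 v = c • v := by
    intro v
    rw [LinearMap.mem_ker, LinearMap.sub_apply, LinearMap.smul_apply, Module.End.one_apply,
      sub_eq_zero]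
  have hrange : ∀ v : V, A0 v - v ∈ LinearMap.ker (A0 - c • (1 : Module.End T V)) := by
    intro v
    have := LinearMap.congr_fun hq v
    rw [LinearMap.mem_ker]
    simpa using this
  have hunit : IsUnit (x - 1) ∨ IsUnit (w - 1) := by
    have h1 : u * (x - 1) + u * (w - 1) = 1 := by linear_combination hu + u * hs
    rcases IsLocalRing.isUnit_or_isUnit_of_add_one h1 with h | h
    · exact Or.inl (isUnit_of_mul_isUnit_right h)
    · exact Or.inr (isUnit_of_mul_isUnit_right h)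
  have hkey : ∀ v1 : V, v1 ∈ LinearMap.ker (A0 - c • (1 : Module.End T V)) →
      A0 (b 0) - b 0 ∈ T ∙ v1 → A0 (b 1) - b 1 ∈ T ∙ v1 →
      LinearMap.ker (A0 - c • (1 : Module.End T V)) = T ∙ v1 := by
    intro v1 hv1 h0 h1
    apply le_antisymm
    · intro v hv
      rw [hmemker] at hv
      have e1 : v = u • (A0 v - v) := by
        have : c • v - v = (c - 1) • v := by module
        rw [hv, this, smul_smul, hu, one_smul]
      have e2 : A0 v - v = b.repr v 0 • (A0 (b 0) - b 0) + b.repr v 1 • (A0 (b 1) - b 1) := by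
        conv_lhs => rw [← b.sum_repr v, Fin.sum_univ_two]
        rw [map_add, map_smul, map_smul]
        module
      rw [e1, e2]
      exact Submodule.smul_mem _ _
        (Submodule.add_mem _ (Submodule.smul_mem _ _ h0) (Submodule.smul_mem _ _ h1))
    · rw [Submodule.span_singleton_le_iff_mem]
      exact hv1
  rcases hunit with h | h
  · obtain ⟨b', hb'⟩ := exists_basis_of_unit0 b (x - 1) z h
    have hv : b' 0 = A0 (b 0) - b 0 := by rw [hb', hA0]; module
    obtain ⟨r, hr⟩ := h.exists_left_inv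
    refine ⟨b', hkey _ (hv ▸ hrange _) (hv ▸ Submodule.mem_span_singleton_self _) ?_⟩
    rw [Submodule.mem_span_singleton]
    refine ⟨r * y, ?_⟩
    rw [hb', hA1, smul_add, smul_smul, smul_smul]
    have c1 : r * y * (x - 1) = y := by linear_combination y * hr
    have c2 : r * y * z = w - 1 := by linear_combination (w - 1) * hr - r * hdet1
    rw [c1, c2]
    module
  · obtain ⟨b', hb'⟩ := exists_basis_of_unit1 b y (w - 1) h
    have hv : b' 0 = A0 (b 1) - b 1 := by rw [hb', hA1]; module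
    obtain ⟨r, hr⟩ := h.exists_left_inv
    refine ⟨b', hkey _ (hv ▸ hrange _) ?_ (hv ▸ Submodule.mem_span_singleton_self _)⟩
    rw [Submodule.mem_span_singleton]
    refine ⟨r * z, ?_⟩
    rw [hb', hA0, smul_add, smul_smul, smul_smul]
    have c1 : r * z * y = x - 1 := by linear_combination (x - 1) * hr - r * hdet1
    have c2 : r * z * (w - 1) = z := by linear_combination z * hr
    rw [c1, c2]
    module

theorem conj_mem_inertia (P : ValuationSubring (AlgebraicClosure ℚ))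
    {σ τ : AlgebraicClosure ℚ ≃ₐ[ℚ] AlgebraicClosure ℚ} (hσ : σ ∈ P.decompositionSubgroup ℚ)
    (hτ : τ ∈ P.inertiaSubgroupIn ℚ) : σ * τ * σ⁻¹ ∈ P.inertiaSubgroupIn ℚ := by
  obtain ⟨t, ht, rfl⟩ := hτ
  refine ⟨⟨σ, hσ⟩ * t * ⟨σ, hσ⟩⁻¹, ?_, rfl⟩
  exact (MonoidHom.normal_ker _).conj_mem t ht _

/-- **ALG-Ord.**  The ordinary line at `P` from the relation `(ρ τ₀ - c)(ρ τ - 1) = 0` on inertia. -/
theorem exists_line {T : Type} [CommRing T] [IsLocalRing T] (ρ : GaloisRepAdic T)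
    (P : ValuationSubring (AlgebraicClosure ℚ))
    (τ0 : AlgebraicClosure ℚ ≃ₐ[ℚ] AlgebraicClosure ℚ) (hτ0 : τ0 ∈ P.inertiaSubgroupIn ℚ)
    (c : T) (hc1 : IsUnit (c - 1)) (hdet : LinearMap.det (ρ.ρ τ0) = c)
    (hR : ∀ τ ∈ P.inertiaSubgroupIn ℚ, (ρ.ρ τ0 - c • 1) * (ρ.ρ τ - 1) = 0) :
    ∃ L : Submodule T ρ.V,
      (∃ b : Module.Basis (Fin 2) T ρ.V, L = T ∙ b 0) ∧
      (∀ σ ∈ P.decompositionSubgroup ℚ, ∀ v ∈ L, ρ.ρ σ v ∈ L) ∧
      (∀ σ ∈ P.inertiaSubgroupIn ℚ, ∀ v : ρ.V, ρ.ρ σ v - v ∈ L) := by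
  have hc : IsUnit c := by
    rw [← hdet]
    refine IsUnit.of_mul_eq_one (LinearMap.det (ρ.ρ τ0⁻¹)) ?_
    rw [← map_mul, ← map_mul, mul_inv_cancel, map_one, map_one]
  obtain ⟨b', hb'⟩ := exists_basis_ker (Module.finBasisOfFinrankEq T ρ.V ρ.finrank_eq) (ρ.ρ τ0) c
    hc1 hc hdet (hR τ0 hτ0)
  have hI : ∀ σ ∈ P.inertiaSubgroupIn ℚ, ∀ v : ρ.V,
      ρ.ρ σ v - v ∈ LinearMap.ker (ρ.ρ τ0 - c • (1 : Module.End T ρ.V)) := by
    intro σ hσ v
    have := LinearMap.congr_fun (hR σ hσ) v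
    rw [LinearMap.mem_ker]
    simpa using this
  refine ⟨LinearMap.ker (ρ.ρ τ0 - c • (1 : Module.End T ρ.V)), ⟨b', hb'⟩, ?_, hI⟩
  intro σ hσ v hv
  obtain ⟨u, hu⟩ := hc1.exists_left_inv
  have hv' : ρ.ρ τ0 v = c • v := by
    rw [LinearMap.mem_ker, LinearMap.sub_apply, LinearMap.smul_apply, Module.End.one_apply,
      sub_eq_zero] at hv
    exact hv
  have e1 : v = u • (ρ.ρ τ0 v - v) := by
    have : c • v - v = (c - 1) • v := by module
    rw [hv', this, smul_smul, hu, one_smul]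
  have e2 : ρ.ρ σ (ρ.ρ τ0 v - v) = ρ.ρ (σ * τ0 * σ⁻¹) (ρ.ρ σ v) - ρ.ρ σ v := by
    rw [map_sub]
    congr 1
    rw [← Module.End.mul_apply, ← Module.End.mul_apply, ← map_mul, ← map_mul, inv_mul_cancel_right]
  rw [e1, map_smul, e2]
  exact Submodule.smul_mem _ _ (hI _ (conj_mem_inertia P hσ hτ0) _)

end Fermat.Agent.S33.Alg
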