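import Fermat.Agent.S33.Alg.Unit

/-!
# S33 / Alg / Simple  (leaf ALG-B1, pure Mathlib)

A simple module `X` for a group `G` all of whose elements satisfy `(g - 1)(g - ε g) = 0` (in the form
`g + ε(g) g⁻¹ = 1 + ε(g)`), and on which some `g0` with `ε g0 - 1` injective has a nonzero fixed vector, is trivial.

## Proof (all identities in the ring `Module.End 𝕋 X`; `δ := ε g0 - 1`, scalars are central)
Put `A0 = r g0`, `c0 = ε g0`, `E1 = A0 - c0`, `E2 = A0 - 1`; so `E2 - E1 = δ`.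
0. `hrel g0` applied to `A0 x` : `A0² - (1 + c0) A0 + c0 = 0`, i.e. `E1 E2 = E2 E1 = 0`, hence `E1² = - δ E1`.
   Also `c0 • r g0⁻¹ = 1 + c0 - A0`.
1. For `τ : G`, `χ := ε τ` : `χ • r τ⁻¹ = 1 + χ - r τ` (`hrel τ`).  `hrel (τ * g0)` reads
   `τ A0 + χ c0 • A0⁻¹ τ⁻¹ = 1 + χ c0`, i.e. `τ A0 + (1 + c0 - A0)(1 + χ - τ) = 1 + χ c0`, i.e.
   `(***)  τ E1 + E1 τ + δ τ - (1 + χ) E1 - χ δ = 0`.
2. `E1 (***) E1` and `E1² = - δ E1` give `δ (E1 τ E1 + δ E1) = 0`, hence `E1 τ E1 = - δ E1` (`hinj`).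
3. Apply 2 to `τ τ'` and use `δ = E2 - E1` in the middle : `E1 τ E2 τ' E1 = 0`.
4. `Y := span {E2 τ' E1 x}`.  For `y ∈ Y` : `E1 y = 0` and `E1 τ y = 0` for all `τ`; by `(***)` applied to `y` :
   `δ (τ y - χ y) = 0`, so `τ y = χ y ∈ Y` : `Y` is stable.  If `Y = ⊤` then `E1 x0 = 0`, so `δ x0 = 0`, `x0 = 0` : absurd.
   So `Y = ⊥` : `E2 τ' E1 = 0` for all `τ'`.
5. `Y1 := ker E2 ∋ x0`.  For `x ∈ Y1` : `E1 x = - δ x`, so `δ E2 τ' x = 0`, `τ' x ∈ Y1` : stable and nonzero, so `Y1 = ⊤`,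
   `A0 = 1`, `E1 = - δ`; by 2 : `δ² τ = δ²`, so `τ = 1`.
-/

set_option autoImplicit false

namespace Fermat.Agent.S33.Alg

variable {𝕋 X G : Type*} [CommRing 𝕋] [AddCommGroup X] [Module 𝕋 X] [Group G]

/-- step 2 of the proof, in an abstract algebra. -/
theorem Simple_step2 {R : Type*} [Ring R] [Algebra 𝕋 R] (E1 T : R) (δ χ : 𝕋)
    (h11 : E1 * E1 = -(δ • E1))
    (star : T * E1 + E1 * T + δ • T - (1 + χ) • E1 - (χ * δ) • (1 : R) = 0) :
    δ • (E1 * T * E1 + δ • E1) = 0 := by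
  have h11' : ∀ Z : R, E1 * (E1 * Z) = -(δ • (E1 * Z)) := fun Z => by
    rw [← mul_assoc, h11, neg_mul, smul_mul_assoc]
  have h := congrArg (fun Z => E1 * Z * E1) star
  simp only [mul_add, add_mul, mul_sub, sub_mul, smul_mul_assoc, mul_smul_comm, mul_one,
    mul_zero, zero_mul, mul_assoc, h11, h11', mul_neg, neg_mul, smul_neg] at h
  simp only [mul_assoc]
  linear_combination (norm := module) -h

/-- step 1 of the proof, in an abstract algebra. -/
theorem Simple_step1 {R : Type*} [Ring R] [Algebra 𝕋 R] (A A' T T' : R) (c χ : 𝕋)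
    (h1 : T + χ • T' = (1 + χ) • (1 : R)) (h2 : A + c • A' = (1 + c) • (1 : R))
    (h3 : T * A + (χ * c) • (A' * T') = (1 + χ * c) • (1 : R)) :
    T * (A - c • 1) + (A - c • 1) * T + (c - 1) • T - (1 + χ) • (A - c • 1)
      - (χ * (c - 1)) • (1 : R) = 0 := by
  have h4 : (χ * c) • (A' * T') = (c • A') * (χ • T') := by
    rw [smul_mul_smul_comm, mul_comm]
  have h5 : c • A' = (1 + c) • 1 - A := by linear_combination (norm := module) h2
  have h6 : χ • T' = (1 + χ) • 1 - T := by linear_combination (norm := module) h1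
  rw [h4, h5, h6] at h3
  simp only [mul_sub, sub_mul, smul_mul_assoc, mul_smul_comm, mul_one, one_mul] at h3 ⊢
  linear_combination (norm := module) h3

theorem trivial_of_simple (r : G →* Module.End 𝕋 X) (ε : G →* 𝕋)
    (hrel : ∀ (g : G) (x : X), r g x + ε g • r g⁻¹ x = (1 + ε g) • x)
    (g0 : G) (hinj : ∀ x : X, (ε g0 - 1) • x = 0 → x = 0)
    (hsimple : ∀ Y : Submodule 𝕋 X, (∀ g, ∀ y ∈ Y, r g y ∈ Y) → Y = ⊥ ∨ Y = ⊤)
    (x0 : X) (hx0 : x0 ≠ 0) (hfix : r g0 x0 = x0) (g : G) (x : X) : r g x = x := by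
  have hrelE : ∀ τ : G, r τ + ε τ • r τ⁻¹ = (1 + ε τ) • (1 : Module.End 𝕋 X) := fun τ =>
    LinearMap.ext fun x => by simpa using hrel τ x
  have hinv : ∀ τ : G, r τ⁻¹ * r τ = 1 := fun τ => by rw [← map_mul, inv_mul_cancel, map_one]
  have hinjE : ∀ Z : Module.End 𝕋 X, (ε g0 - 1) • Z = 0 → Z = 0 := fun Z hZ =>
    LinearMap.ext fun x => hinj _ (by rw [← LinearMap.smul_apply, hZ]; rfl)
  have hAA : r g0 * r g0 = (1 + ε g0) • r g0 - ε g0 • 1 := by
    have h := congrArg (fun Z => Z * r g0) (hrelE g0)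
    simp only [add_mul, smul_mul_assoc, hinv, one_mul] at h
    linear_combination (norm := module) h
  obtain ⟨E1, hE1⟩ : ∃ E1 : Module.End 𝕋 X, E1 = r g0 - ε g0 • 1 := ⟨_, rfl⟩
  obtain ⟨E2, hE2⟩ : ∃ E2 : Module.End 𝕋 X, E2 = r g0 - 1 := ⟨_, rfl⟩
  have h21 : E2 = E1 + (ε g0 - 1) • 1 := by
    rw [hE1, hE2]
    module
  have h11 : E1 * E1 = -((ε g0 - 1) • E1) := by
    rw [hE1]
    simp only [mul_sub, sub_mul, smul_mul_assoc, mul_smul_comm, mul_one, one_mul, hAA]
    module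
  have star : ∀ τ, r τ * E1 + E1 * r τ + (ε g0 - 1) • r τ - (1 + ε τ) • E1
      - (ε τ * (ε g0 - 1)) • (1 : Module.End 𝕋 X) = 0 := by
    intro τ
    rw [hE1]
    refine Simple_step1 (r g0) (r g0⁻¹) (r τ) (r τ⁻¹) (ε g0) (ε τ) (hrelE τ) (hrelE g0) ?_
    have h3 := hrelE (τ * g0)
    rwa [map_mul, map_mul, mul_inv_rev, map_mul] at h3
  have step2 : ∀ τ, E1 * r τ * E1 = -((ε g0 - 1) • E1) := by
    intro τ
    have h := hinjE _ (Simple_step2 E1 (r τ) (ε g0 - 1) (ε τ) h11 (star τ))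
    linear_combination (norm := module) h
  have step3 : ∀ τ τ', E1 * r τ * E2 * r τ' * E1 = 0 := by
    intro τ τ'
    have h1 : E1 * r τ * E2 * r τ' * E1 =
        (E1 * r τ * E1) * r τ' * E1 + (ε g0 - 1) • (E1 * (r τ * r τ') * E1) := by
      rw [h21]
      simp only [mul_add, add_mul, mul_smul_comm, smul_mul_assoc, mul_one, mul_assoc]
    rw [h1, step2 τ, ← map_mul, step2 (τ * τ'), neg_mul, neg_mul, smul_mul_assoc, smul_mul_assoc,
      step2 τ']
    module
  have hE1x0 : E1 x0 = -((ε g0 - 1) • x0) := by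
    rw [hE1, LinearMap.sub_apply, hfix, LinearMap.smul_apply, Module.End.one_apply]
    module
  -- step 4
  have h4 : ∀ τ' x, E2 (r τ' (E1 x)) = 0 := by
    have hY := hsimple (⨅ τ : G, LinearMap.ker (E1 * r τ)) (by
      intro σ y hy
      rw [Submodule.mem_iInf] at hy ⊢
      intro τ
      have := hy (τ * σ)
      rw [LinearMap.mem_ker, map_mul, Module.End.mul_apply, Module.End.mul_apply] at this
      rw [LinearMap.mem_ker, Module.End.mul_apply]
      exact this)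
    have hbot : (⨅ τ : G, LinearMap.ker (E1 * r τ)) = ⊥ := by
      refine hY.resolve_right fun htop => hx0 (hinj x0 ?_)
      have h1 : x0 ∈ (⨅ τ : G, LinearMap.ker (E1 * r τ)) := by rw [htop]; trivial
      rw [Submodule.mem_iInf] at h1
      have h2 := h1 1
      rw [LinearMap.mem_ker, map_one, mul_one, hE1x0, neg_eq_zero] at h2
      exact h2
    intro τ' x
    rw [← Submodule.mem_bot 𝕋, ← hbot, Submodule.mem_iInf]
    intro τ
    rw [LinearMap.mem_ker]
    exact LinearMap.congr_fun (step3 τ τ') x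
  -- step 5
  have h5 : ∀ x, E2 x = 0 := by
    have hE1x : ∀ x, E2 x = 0 → E1 x = -((ε g0 - 1) • x) := by
      intro x hx
      rw [h21, LinearMap.add_apply, LinearMap.smul_apply, Module.End.one_apply] at hx
      exact eq_neg_of_add_eq_zero_left hx
    have hY := hsimple (LinearMap.ker E2) (by
      intro σ y hy
      rw [LinearMap.mem_ker] at hy ⊢
      have h1 := h4 σ y
      rw [hE1x y hy, map_neg, map_neg, map_smul, map_smul, neg_eq_zero] at h1
      exact hinj _ h1)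
    have htop : LinearMap.ker E2 = ⊤ := by
      refine hY.resolve_left fun hbot => hx0 ?_
      rw [← Submodule.mem_bot 𝕋, ← hbot, LinearMap.mem_ker, hE2, LinearMap.sub_apply, hfix,
        Module.End.one_apply, sub_self]
    intro x
    have : x ∈ LinearMap.ker E2 := by rw [htop]; trivial
    exact this
  have h6 : ∀ x, E1 x = -((ε g0 - 1) • x) := by
    intro x
    have hx := h5 x
    rw [h21, LinearMap.add_apply, LinearMap.smul_apply, Module.End.one_apply] at hx
    exact eq_neg_of_add_eq_zero_left hx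
  have h7 := LinearMap.congr_fun (step2 g) x
  rw [Module.End.mul_apply, Module.End.mul_apply, h6, h6, LinearMap.neg_apply,
    LinearMap.smul_apply, h6, map_neg, map_smul] at h7
  rw [← sub_eq_zero]
  apply hinj
  apply hinj
  linear_combination (norm := module) h7

end Fermat.Agent.S33.Alg
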