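import Fermat.Agent.S33.Alg.Unit

/-!
# S33 / Alg / Tors : the submodule `W[J]`
-/

set_option autoImplicit false

namespace Fermat.Agent.S33.Alg

variable {𝕋 W Γ : Type*} [CommRing 𝕋] [AddCommGroup W] [Module 𝕋 W] [Group Γ]

/-- `W[J]`. -/
def tors (J : Ideal 𝕋) (W : Type*) [AddCommGroup W] [Module 𝕋 W] : Submodule 𝕋 W where
  carrier := {x | ∀ a ∈ J, a • x = 0}
  add_mem' := fun {x y} hx hy a ha => by rw [smul_add, hx a ha, hy a ha, add_zero]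
  zero_mem' := fun a _ => smul_zero a
  smul_mem' := fun c x hx a ha => by rw [smul_comm, hx a ha, smul_zero]

theorem mem_tors {J : Ideal 𝕋} {x : W} : x ∈ tors J W ↔ ∀ a ∈ J, a • x = 0 := Iff.rfl

theorem stable_tors (ρ : Γ →* Module.End 𝕋 W) (J : Ideal 𝕋) : Stable ρ ⊤ (tors J W) :=
  fun g _ x hx a ha => by rw [← map_smul, hx a ha, map_zero]

theorem nil_tors (𝔪 : Ideal 𝕋) (n : ℕ) : Nil 𝔪 (tors (𝔪 ^ n) W) :=
  ⟨n, fun a ha x => Subtype.ext (x.2 a ha)⟩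

end Fermat.Agent.S33.Alg
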