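import Fermat.Agent.S33.Alg.InjQ

/-!
# S33 / Alg / Trace  (leaf ALG-E, pure Mathlib)

`t(τ) = 1 + ε(τ)` exactly on `W`, for `τ ∈ I` (uses that `𝔪` is not Eisenstein).

## Proof
`s τ := t τ - 1 - ε τ`.  `E := span {s τ • x | τ ∈ I, x : W}`.
1. `E` is `Stable ρ ⊤` (`ρ g` is `𝕋`-linear).
2. `E ≤ aug ρ I ⊤` : `s τ • x = (ρ τ x - x) + ε τ • (ρ τ⁻¹ x - x)` by `H.CH`.
3. Suppose `E ≠ ⊥`.  `Submodule 𝕋 W` is finite : take `X` minimal among the nonzero `Stable ρ ⊤` submodules `≤ E`.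
4. `𝔪 X = 0` : for `a ∈ 𝔪`, `a • X` (`X.map (a • LinearMap.id)`) is stable and `≤ X`, so it is `⊥` or `X`; if `a • X = X` then
   `X = a ^ n • X = ⊥` (`hnil`).
5. for `x ∈ X` : `ρ τ0 x = ε τ0 • x`.  Indeed with `A0 = ρ τ0`, `c0 = ε τ0`, `y := A0 x - c0 • x ∈ X ≤ aug ρ I ⊤`, and
   `A0 y - y = (A0² - (1 + c0) A0 + c0) x = s τ0 • A0 x = 0` (`H.CH τ0 (A0 x)`, step 4 with `H.ord`); `eq_zero_of_fix`.
   Hence also `ρ τ0⁻¹ x = ` the inverse : `ε τ0 • ρ τ0⁻¹ x = x` for `x ∈ X`.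
6. for `g : Γ`, `x ∈ X` : `(c0 - 1) • ρ g x = (t (g * τ0) - t g) • x`.  [`H.CH (g * τ0) x` :
   `ρ g (ρ τ0 x) + ε g • c0 • ρ τ0⁻¹ (ρ g⁻¹ x) = t (g τ0) • x`, i.e. `c0 • ρ g x + ε g • ρ g⁻¹ x = t (g τ0) • x` (step 5 for `x` and for
   `ρ g⁻¹ x ∈ X`); subtract `H.CH g x`.]
7. choose `b`, `i ∈ 𝔪` with `b (c0 - 1) + i = 1` (`Ideal.IsMaximal.exists_inv H.ne0`) : `ρ g x = ψ0 g • x` with
   `ψ0 g := b * (t (g * τ0) - t g)` (step 4 kills `i`).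
8. fix `0 ≠ x ∈ X`.  `ψ := mk ∘ ψ0` is a monoid hom `Γ →* 𝕋 ⧸ 𝔪` (`mem_of_smul_eq_zero` : `(ψ0 (g h) - ψ0 g ψ0 h) • x = 0`, …) and
   `mk (t g) = ψ g + mk (ε g) * ψ g⁻¹` (`H.CH g x`).  This contradicts `H.nE ψ`.
-/

set_option autoImplicit false

namespace Fermat.Agent.S33.Alg

variable {𝕋 W Γ : Type*} [CommRing 𝕋] [AddCommGroup W] [Module 𝕋 W] [Group Γ]

theorem trace_exact [Finite W] {𝔪 : Ideal 𝕋} [𝔪.IsMaximal] (hnil : Nil 𝔪 W)
    {ρ : Γ →* Module.End 𝕋 W} {I : Subgroup Γ} {ε : Γ →* 𝕋} {t : Γ → 𝕋} {τ0 : Γ} {Wnew : Submodule 𝕋 W}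
    (H : Hyp 𝔪 ρ I ε t τ0 Wnew) {τ : Γ} (hτ : τ ∈ I) (x : W) : (t τ - 1 - ε τ) • x = 0 := by
  classical
  set E : Submodule 𝕋 W :=
    Submodule.span 𝕋 {y | ∃ τ ∈ I, ∃ x : W, y = (t τ - 1 - ε τ) • x} with hE
  suffices hbot : E = ⊥ by
    have h1 : (t τ - 1 - ε τ) • x ∈ E := Submodule.subset_span ⟨τ, hτ, x, rfl⟩
    rw [hbot] at h1
    exact (Submodule.mem_bot 𝕋).1 h1
  by_contra hEne
  -- step 1
  have hEst : Stable ρ ⊤ E := by
    intro g _ y hy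
    induction hy using Submodule.span_induction with
    | mem y hy =>
      obtain ⟨τ, hτ, x, rfl⟩ := hy
      rw [map_smul]
      exact Submodule.subset_span ⟨τ, hτ, ρ g x, rfl⟩
    | zero => rw [map_zero]; exact Submodule.zero_mem _
    | add x y _ _ hx hy => rw [map_add]; exact Submodule.add_mem _ hx hy
    | smul a x _ hx => rw [map_smul]; exact Submodule.smul_mem _ a hx
  -- step 2
  have hEaug : E ≤ aug ρ I ⊤ := by
    rw [hE, Submodule.span_le]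
    rintro _ ⟨τ, hτ, x, rfl⟩
    have h1 : (t τ - 1 - ε τ) • x = (ρ τ x - x) + ε τ • (ρ τ⁻¹ x - x) := by
      rw [sub_smul, sub_smul, one_smul, ← H.CH τ x, smul_sub]
      abel
    rw [h1]
    exact Submodule.add_mem _ (sub_mem_aug ρ hτ Submodule.mem_top)
      (Submodule.smul_mem _ _ (sub_mem_aug ρ (I.inv_mem hτ) Submodule.mem_top))
  -- step 3
  have hfin : Finite (Submodule 𝕋 W) :=
    Finite.of_injective (fun S : Submodule 𝕋 W => (S : Set W)) SetLike.coe_injective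
  obtain ⟨X, ⟨hXne, hXst, hXE⟩, hXmin⟩ := (wellFounded_lt (α := Submodule 𝕋 W)).has_min
    {X | X ≠ ⊥ ∧ Stable ρ ⊤ X ∧ X ≤ E} ⟨E, hEne, hEst, le_rfl⟩
  have hmin : ∀ Y : Submodule 𝕋 W, Stable ρ ⊤ Y → Y ≤ X → Y = ⊥ ∨ Y = X := by
    intro Y hY hYX
    by_cases hY0 : Y = ⊥
    · exact Or.inl hY0
    · right
      by_contra hne
      exact hXmin Y ⟨hY0, hY, hYX.trans hXE⟩ (lt_of_le_of_ne hYX hne)
  have hst : ∀ (g : Γ), ∀ x ∈ X, ρ g x ∈ X := fun g x hx => hXst g (Subgroup.mem_top g) x hx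
  -- step 4
  have h4 : ∀ a ∈ 𝔪, ∀ x ∈ X, a • x = 0 := by
    intro a ha x hx
    have hYst : Stable ρ ⊤ (X.map (a • (LinearMap.id : W →ₗ[𝕋] W))) := by
      rintro g _ _ ⟨x', hx', rfl⟩
      refine ⟨ρ g x', hst g x' hx', ?_⟩
      simp
    have hYX : X.map (a • (LinearMap.id : W →ₗ[𝕋] W)) ≤ X := by
      rintro _ ⟨x', hx', rfl⟩
      simpa using X.smul_mem a hx'
    rcases hmin _ hYst hYX with h | h
    · have h1 : a • x ∈ X.map (a • (LinearMap.id : W →ₗ[𝕋] W)) := ⟨x, hx, by simp⟩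
      rw [h] at h1
      exact (Submodule.mem_bot 𝕋).1 h1
    · exfalso
      obtain ⟨n, hn⟩ := hnil
      have h2 : ∀ k : ℕ, ∀ x ∈ X, ∃ x' ∈ X, x = a ^ k • x' := by
        intro k
        induction k with
        | zero => exact fun x hx => ⟨x, hx, by simp⟩
        | succ k ih =>
          intro x hx
          obtain ⟨x', hx', rfl⟩ := ih x hx
          rw [← h] at hx'
          obtain ⟨x'', hx'', rfl⟩ := hx'
          exact ⟨x'', hx'', by simp [pow_succ, mul_smul]⟩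
      apply hXne
      rw [Submodule.eq_bot_iff]
      intro x hx
      obtain ⟨x', -, rfl⟩ := h2 n x hx
      exact hn _ (Ideal.pow_mem_pow ha n) x'
  -- step 5
  have h5 : ∀ x ∈ X, ρ τ0 x = ε τ0 • x := by
    intro x hx
    have hy : ρ τ0 x - ε τ0 • x ∈ X := X.sub_mem (hst τ0 x hx) (X.smul_mem _ hx)
    have hCH := H.CH τ0 (ρ τ0 x)
    rw [rho_inv_apply] at hCH
    have hs : (t τ0 - 1 - ε τ0) • ρ τ0 x = 0 := h4 _ (H.ord τ0 H.mem0) _ (hst τ0 x hx)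
    have hfix : ρ τ0 (ρ τ0 x - ε τ0 • x) = ρ τ0 x - ε τ0 • x := by
      rw [map_sub, map_smul]
      rw [sub_smul, sub_smul, one_smul, ← hCH] at hs
      rw [← sub_eq_zero, ← hs]
      abel
    have := eq_zero_of_fix hnil H (hEaug (hXE hy)) hfix
    exact sub_eq_zero.1 this
  have h5' : ∀ x ∈ X, ε τ0 • ρ τ0⁻¹ x = x := by
    intro x hx
    rw [← h5 _ (hst τ0⁻¹ x hx), rho_apply_inv]
  -- step 6
  have h6 : ∀ (g : Γ), ∀ x ∈ X, (ε τ0 - 1) • ρ g x = (t (g * τ0) - t g) • x := by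
    intro g x hx
    have h1 := H.CH (g * τ0) x
    rw [map_mul, Module.End.mul_apply, h5 x hx, map_smul, map_mul, mul_inv_rev, map_mul,
      Module.End.mul_apply, mul_smul, h5' _ (hst g⁻¹ x hx)] at h1
    rw [sub_smul, sub_smul, one_smul, ← h1, ← H.CH g x]
    abel
  -- step 7
  obtain ⟨b, i, hi, hb⟩ := Ideal.IsMaximal.exists_inv ‹𝔪.IsMaximal› H.ne0
  have h7 : ∀ (g : Γ), ∀ x ∈ X, ρ g x = (b * (t (g * τ0) - t g)) • x := by
    intro g x hx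
    have h1 : (b * (ε τ0 - 1) + i) • ρ g x = ρ g x := by rw [hb, one_smul]
    rw [add_smul, mul_smul, h6 g x hx, h4 i hi _ (hst g x hx), add_zero, ← mul_smul] at h1
    exact h1.symm
  -- step 8
  obtain ⟨x, hx, hx0⟩ := Submodule.exists_mem_ne_zero_of_ne_bot hXne
  have hmk : ∀ a c : 𝕋, a • x = c • x → Ideal.Quotient.mk 𝔪 a = Ideal.Quotient.mk 𝔪 c := by
    intro a c hac
    rw [Ideal.Quotient.eq]
    apply mem_of_smul_eq_zero hnil hx0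
    rw [sub_smul, hac, sub_self]
  let ψ : Γ →* 𝕋 ⧸ 𝔪 :=
    { toFun := fun g => Ideal.Quotient.mk 𝔪 (b * (t (g * τ0) - t g))
      map_one' := by
        rw [← map_one (Ideal.Quotient.mk 𝔪)]
        apply hmk
        rw [← h7 1 x hx, map_one, Module.End.one_apply, one_smul]
      map_mul' := by
        intro g h
        rw [← map_mul]
        apply hmk
        rw [← h7 (g * h) x hx, map_mul, Module.End.mul_apply, h7 h x hx, map_smul, h7 g x hx,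
          ← mul_smul, mul_comm] }
  obtain ⟨g, hg⟩ := H.nE ψ
  apply hg
  change Ideal.Quotient.mk 𝔪 (t g) = Ideal.Quotient.mk 𝔪 (b * (t (g * τ0) - t g)) +
    Ideal.Quotient.mk 𝔪 (ε g) * Ideal.Quotient.mk 𝔪 (b * (t (g⁻¹ * τ0) - t g⁻¹))
  rw [← map_mul, ← map_add]
  apply hmk
  rw [← H.CH g x, add_smul, mul_smul (ε g), ← h7 g x hx, ← h7 g⁻¹ x hx]

end Fermat.Agent.S33.Alg
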