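import Fermat.Agent.S32.Alg.Kernel
import Fermat.Agent.S32.OfES
import Fermat.Agent.S33.Alg.Ord

/-!
# S33 / block ALG / file Transfer: relations with Hecke coefficients, from finite level to `M₂(T)`

* `rel_HT`            : `∑ α(c_i) AO(γ_i) = 0` (`c_i ∈ 𝒪 ⊗ C`) implies `∑ π(c_i) R(γ_i) = 0`.
* `det_eq`            : `det ρ(g) = ε(g)`.
* `transfer_HT`       : `w ∈ 𝒪[G_ℚ]`; if for every `K` there is `e_K ∈ 𝒪 ⊗ C` with `π(e_K)` a unit and
                        `α(e_K) * w(AO) ∈ J^K M_r(𝒪)` then `w(R) = 0`.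
* `transfer_R`, `transfer_R_end` : the same for `w = (τ0 - ε τ0)(τ - 1)`.
* `exists_one_sub_mul_mem` : finite ring lemma (no lifting of idempotents).
* `transfer_Zp`       : `𝒪 = ℤ_p`, hypothesis on `(ℤ/p^K)^r`.
* `exists_line_Zp`    : the ordinary line at `P` from the finite levels.
-/

set_option autoImplicit false

namespace Fermat.Agent.S33.Alg

open Fermat.Agent.GAL Fermat.Agent.S32
open scoped TensorProduct

section Abstract

variable {𝒪 T : Type} [CommRing 𝒪] [IsLocalRing 𝒪] [CommRing T] [IsLocalRing T] [Algebra 𝒪 T]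

/-- **Kernel lemma with Hecke coefficients.** -/
theorem rel_HT (hFD : FrobeniusDensity) [IsDomain 𝒪] [CharZero 𝒪] [IsNoetherianRing 𝒪]
    [Module.Finite 𝒪 T] [IsLocalHom (algebraMap 𝒪 T)] (D : AlgDatum 𝒪 T)
    (b : Module.Basis (Fin 2) T D.ρ.V) {ι : Type*} (s : Finset ι) (c : ι → D.HT) (γ : ι → GQ)
    (h : ∑ i ∈ s, alphaHom 𝒪 D.Φ (c i) * D.AO (γ i) = 0) :
    ∑ i ∈ s, piHom 𝒪 D.ψ (c i) • D.R b (γ i) = 0 := by
  choose t ht1 ht2 using fun g => D.exists_trace_rel hFD g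
  have hRapp : ∀ g, D.R b g = LinearMap.toMatrix b b (D.ρ.ρ g) := fun g => rfl
  have hα : ∀ x : 𝒪, alphaHom 𝒪 D.Φ (algebraMap 𝒪 D.HT x) = algebraMap 𝒪 _ x :=
    fun x => (alphaHom 𝒪 D.Φ).commutes x
  exact formal_kernel (E := Matrix (Fin D.r) (Fin D.r) 𝒪) (𝕋 := D.HT) (G := GQ) (T := T)
    (alphaHom 𝒪 D.Φ : D.HT →+* _) (alphaHom_injective D.Φ D.Φ_inj) D.AO
    (fun s g => alphaHom_comm D.Φ (D.AO g) (fun c => D.AO_comm c g) s)
    (((algebraMap 𝒪 D.HT : 𝒪 →* D.HT).comp (Units.coeHom 𝒪)).comp D.ε) t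
    (fun g => by
      have := ht1 g
      simp only [RingHom.coe_coe, MonoidHom.comp_apply, Units.coeHom_apply, MonoidHom.coe_coe]
      rw [this, hα, Algebra.algebraMap_eq_smul_one, smul_mul_assoc, one_mul])
    (piHom 𝒪 D.ψ : D.HT →+* T) (D.R b)
    (fun g => by
      rw [hRapp, ← LinearMap.trace_eq_matrix_trace T b]
      exact (ht2 g).symm)
    (GAL.S31.span_toMatrix_eq_top D.ρ D.ρ_absIrr b)
    s c γ h

/-- `det ρ(g) = ε(g)`. -/
theorem det_eq (hFD : FrobeniusDensity) [IsDomain 𝒪] [CharZero 𝒪] [IsNoetherianRing 𝒪]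
    [Module.Finite 𝒪 T] [IsLocalHom (algebraMap 𝒪 T)] (D : AlgDatum 𝒪 T) (g : GQ) :
    LinearMap.det (D.ρ.ρ g) = algebraMap 𝒪 T ((D.ε g : 𝒪ˣ) : 𝒪) := by
  let b : Module.Basis (Fin 2) T D.ρ.V := Module.finBasisOfFinrankEq T D.ρ.V D.ρ.finrank_eq
  obtain ⟨t, ht1, ht2⟩ := D.exists_trace_rel hFD g
  have hα : ∀ x : 𝒪, alphaHom 𝒪 D.Φ (algebraMap 𝒪 D.HT x) = algebraMap 𝒪 _ x :=
    fun x => (alphaHom 𝒪 D.Φ).commutes x
  have hπ : ∀ x : 𝒪, piHom 𝒪 D.ψ (algebraMap 𝒪 D.HT x) = algebraMap 𝒪 T x :=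
    fun x => (piHom 𝒪 D.ψ).commutes x
  have hgg : D.AO g⁻¹ * D.AO g = 1 := by rw [← map_mul, inv_mul_cancel, map_one]
  have key := rel_HT hFD D b (Finset.univ : Finset (Fin 3))
    ![1, -t, algebraMap 𝒪 D.HT ((D.ε g : 𝒪ˣ) : 𝒪)] ![g * g, g, 1] (by
      simp only [Fin.sum_univ_three, Matrix.cons_val_zero, Matrix.cons_val_one, Matrix.cons_val_two,
        Matrix.head_cons, Matrix.tail_cons]
      rw [map_one, map_neg, ht1, hα, map_mul, map_one, one_mul, mul_one, neg_mul, add_mul,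
        smul_mul_assoc, hgg, Algebra.algebraMap_eq_smul_one]
      abel)
  simp only [Fin.sum_univ_three, Matrix.cons_val_zero, Matrix.cons_val_one, Matrix.cons_val_two,
    Matrix.head_cons, Matrix.tail_cons] at key
  rw [map_one, map_neg, ht2, hπ, map_mul, map_one, one_smul] at key
  have hRapp : D.R b g = LinearMap.toMatrix b b (D.ρ.ρ g) := rfl
  set X := D.R b g with hX
  have htr : LinearMap.trace T D.ρ.V (D.ρ.ρ g) = X.trace := by
    rw [hRapp, ← LinearMap.trace_eq_matrix_trace T b]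
  have hdet : LinearMap.det (D.ρ.ρ g) = X.det := by
    rw [hRapp, LinearMap.det_toMatrix]
  rw [htr] at key
  rw [hdet]
  have e00 := congrFun (congrFun key 0) 0
  simp only [Matrix.add_apply, Matrix.mul_apply, Fin.sum_univ_two, Matrix.smul_apply,
    Matrix.one_apply_eq, Matrix.zero_apply, Matrix.trace_fin_two, smul_eq_mul] at e00
  rw [Matrix.det_fin_two]
  linear_combination (-1 : T) * e00

omit [IsLocalRing 𝒪] [IsLocalRing T] in
/-- `J^j M₂(T)` is stable under `T`. -/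
theorem smul_mem_pow_smul_top {P : Type*} [AddCommGroup P] [Module 𝒪 P] [Module T P]
    [IsScalarTower 𝒪 T P] (J : Ideal 𝒪) (t : T) (x : P)
    (hx : x ∈ J • (⊤ : Submodule 𝒪 P)) : t • x ∈ J • (⊤ : Submodule 𝒪 P) := by
  induction hx using Submodule.smul_induction_on' with
  | smul a ha y _ =>
    rw [smul_comm]
    exact Submodule.smul_mem_smul ha Submodule.mem_top
  | add y _ z _ hy hz =>
    rw [smul_add]
    exact Submodule.add_mem _ hy hz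

/-- **Transfer with Hecke coefficients.** -/
theorem transfer_HT (hFD : FrobeniusDensity) [IsDomain 𝒪] [CharZero 𝒪] [IsNoetherianRing 𝒪]
    [Module.Finite 𝒪 T] [IsLocalHom (algebraMap 𝒪 T)] (D : AlgDatum 𝒪 T)
    (b : Module.Basis (Fin 2) T D.ρ.V) (J : Ideal 𝒪) (hJ : J ≠ ⊤) (w : GQ →₀ 𝒪)
    (h : ∀ K : ℕ, ∃ e : D.HT, IsUnit (piHom 𝒪 D.ψ e) ∧
      alphaHom 𝒪 D.Φ e * Finsupp.linearCombination 𝒪 (fun g : GQ => D.AO g) w ∈
        J ^ K • (⊤ : Submodule 𝒪 (Matrix (Fin D.r) (Fin D.r) 𝒪))) :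
    Finsupp.linearCombination 𝒪 (fun g : GQ => D.R b g) w = 0 := by
  set W := Finsupp.linearCombination 𝒪 (fun g : GQ => D.AO g) w with hW
  set W' := Finsupp.linearCombination 𝒪 (fun g : GQ => D.R b g) w with hW'
  let φ : D.HT →ₗ[𝒪] Matrix (Fin D.r) (Fin D.r) 𝒪 :=
    (LinearMap.mulRight 𝒪 W).comp (alphaHom 𝒪 D.Φ).toLinearMap
  let φ' : D.HT →ₗ[𝒪] Matrix (Fin 2) (Fin 2) T :=
    (piHom 𝒪 D.ψ).toLinearMap.smulRight W'
  have hα : ∀ x : 𝒪, alphaHom 𝒪 D.Φ (algebraMap 𝒪 D.HT x) = algebraMap 𝒪 _ x :=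
    fun x => (alphaHom 𝒪 D.Φ).commutes x
  have hπ : ∀ x : 𝒪, piHom 𝒪 D.ψ (algebraMap 𝒪 D.HT x) = algebraMap 𝒪 T x :=
    fun x => (piHom 𝒪 D.ψ).commutes x
  have hker : LinearMap.ker φ ≤ LinearMap.ker φ' := by
    intro e he
    rw [LinearMap.mem_ker] at he ⊢
    have he' : alphaHom 𝒪 D.Φ e * W = 0 := he
    change piHom 𝒪 D.ψ e • W' = 0
    have key := rel_HT hFD D b w.support (fun g => e * algebraMap 𝒪 D.HT (w g)) id (by
      rw [← he', hW, Finsupp.linearCombination_apply, Finsupp.sum, Finset.mul_sum]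
      refine Finset.sum_congr rfl fun g _ => ?_
      rw [map_mul, hα, Algebra.algebraMap_eq_smul_one, mul_assoc, smul_mul_assoc, one_mul]
      rfl)
    rw [← key, hW', Finsupp.linearCombination_apply, Finsupp.sum, Finset.smul_sum]
    refine Finset.sum_congr rfl fun g _ => ?_
    rw [map_mul, hπ, mul_smul, algebraMap_smul]
    rfl
  have hmem : ∀ j : ℕ, W' ∈ J ^ j • (⊤ : Submodule 𝒪 (Matrix (Fin 2) (Fin 2) T)) := by
    intro j
    obtain ⟨K, hK⟩ := exists_pow_of_ker_le φ φ' hker J j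
    obtain ⟨e, ⟨u, hu⟩, he⟩ := h K
    have h1 : piHom 𝒪 D.ψ e • W' ∈ J ^ j • (⊤ : Submodule 𝒪 (Matrix (Fin 2) (Fin 2) T)) := hK e he
    have h2 := smul_mem_pow_smul_top (J ^ j) (↑u⁻¹ : T) _ h1
    rwa [← hu, smul_smul, Units.inv_mul, one_smul] at h2
  have : Module.Finite 𝒪 (Matrix (Fin 2) (Fin 2) T) := Module.Finite.trans T _
  have hK := Ideal.iInf_pow_smul_eq_bot_of_isLocalRing (M := Matrix (Fin 2) (Fin 2) T) J hJ
  have h1 : W' ∈ (⨅ i : ℕ, J ^ i • ⊤ : Submodule 𝒪 (Matrix (Fin 2) (Fin 2) T)) := by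
    rw [Submodule.mem_iInf]
    exact hmem
  rw [hK, Submodule.mem_bot] at h1
  exact h1

/-- The element `(τ0 - ε(τ0)) (τ - 1)` of the group algebra. -/
noncomputable def relElt (D : AlgDatum 𝒪 T) (τ0 τ : GQ) : GQ →₀ 𝒪 :=
  Finsupp.single (τ0 * τ) 1 - Finsupp.single τ0 1 - Finsupp.single τ ((D.ε τ0 : 𝒪ˣ) : 𝒪)
    + Finsupp.single 1 ((D.ε τ0 : 𝒪ˣ) : 𝒪)

theorem linearCombination_relElt {E : Type*} [Ring E] [Algebra 𝒪 E] (D : AlgDatum 𝒪 T) (τ0 τ : GQ)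
    (A : GQ →* E) :
    Finsupp.linearCombination 𝒪 (fun g : GQ => A g) (relElt D τ0 τ) =
      (A τ0 - ((D.ε τ0 : 𝒪ˣ) : 𝒪) • 1) * (A τ - 1) := by
  rw [relElt, map_add, map_sub, map_sub, Finsupp.linearCombination_single,
    Finsupp.linearCombination_single, Finsupp.linearCombination_single,
    Finsupp.linearCombination_single, map_mul, map_one, one_smul, one_smul, sub_mul, mul_sub, mul_sub,
    mul_one, smul_mul_assoc, one_mul, mul_one]
  abel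

/-- **Transfer of the relation (R)**, matrix form. -/
theorem transfer_R (hFD : FrobeniusDensity) [IsDomain 𝒪] [CharZero 𝒪] [IsNoetherianRing 𝒪]
    [Module.Finite 𝒪 T] [IsLocalHom (algebraMap 𝒪 T)] (D : AlgDatum 𝒪 T)
    (b : Module.Basis (Fin 2) T D.ρ.V) (J : Ideal 𝒪) (hJ : J ≠ ⊤) (τ0 τ : GQ)
    (h : ∀ K : ℕ, ∃ e : D.HT, IsUnit (piHom 𝒪 D.ψ e) ∧
      alphaHom 𝒪 D.Φ e * ((D.AO τ0 - ((D.ε τ0 : 𝒪ˣ) : 𝒪) • 1) * (D.AO τ - 1)) ∈
        J ^ K • (⊤ : Submodule 𝒪 (Matrix (Fin D.r) (Fin D.r) 𝒪))) :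
    (D.R b τ0 - ((D.ε τ0 : 𝒪ˣ) : 𝒪) • 1) * (D.R b τ - 1) = 0 := by
  rw [← linearCombination_relElt D τ0 τ (D.R b)]
  refine transfer_HT hFD D b J hJ _ fun K => ?_
  rw [linearCombination_relElt D τ0 τ D.AO]
  exact h K

/-- **Transfer of the relation (R)**, endomorphism form (the hypothesis `hR` of `Alg.exists_line`). -/
theorem transfer_R_end (hFD : FrobeniusDensity) [IsDomain 𝒪] [CharZero 𝒪] [IsNoetherianRing 𝒪]
    [Module.Finite 𝒪 T] [IsLocalHom (algebraMap 𝒪 T)] (D : AlgDatum 𝒪 T)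
    (J : Ideal 𝒪) (hJ : J ≠ ⊤) (τ0 τ : GQ)
    (h : ∀ K : ℕ, ∃ e : D.HT, IsUnit (piHom 𝒪 D.ψ e) ∧
      alphaHom 𝒪 D.Φ e * ((D.AO τ0 - ((D.ε τ0 : 𝒪ˣ) : 𝒪) • 1) * (D.AO τ - 1)) ∈
        J ^ K • (⊤ : Submodule 𝒪 (Matrix (Fin D.r) (Fin D.r) 𝒪))) :
    (D.ρ.ρ τ0 - algebraMap 𝒪 T ((D.ε τ0 : 𝒪ˣ) : 𝒪) • 1) * (D.ρ.ρ τ - 1) = 0 := by
  let b : Module.Basis (Fin 2) T D.ρ.V := Module.finBasisOfFinrankEq T D.ρ.V D.ρ.finrank_eq
  have key := transfer_R hFD D b J hJ τ0 τ h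
  apply (LinearMap.toMatrixAlgEquiv b).injective
  rw [map_zero, map_mul, map_sub, map_sub, map_smul, map_one, algebraMap_smul]
  exact key

end Abstract

/-- **Finite ring lemma.**  `I` an ideal of finite index of a commutative ring `C`, `m` any ideal: there are `f ∈ m` and `n`
with `(1 - f) m^n ⊆ I`. -/
theorem exists_one_sub_mul_mem {C : Type*} [CommRing C] (I : Ideal C) [Finite (C ⧸ I)] (m : Ideal C) :
    ∃ f ∈ m, ∃ n : ℕ, ∀ c ∈ m ^ n, (1 - f) * c ∈ I := by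
  set B := C ⧸ I
  set 𝔪 : Ideal B := m.map (Ideal.Quotient.mk I) with h𝔪
  have : IsArtinianRing B := inferInstance
  have : IsNoetherianRing B := inferInstance
  obtain ⟨n, hn⟩ := IsArtinian.monotone_stabilizes (R := B) (M := B)
    ⟨fun n => OrderDual.toDual (𝔪 ^ n), fun a b hab => Ideal.pow_le_pow_right hab⟩
  have hn' : ∀ k, n ≤ k → 𝔪 ^ n = 𝔪 ^ k := fun k hk => congrArg OrderDual.ofDual (hn k hk)
  have hidem : IsIdempotentElem (𝔪 ^ (n + 1)) := by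
    change 𝔪 ^ (n + 1) * 𝔪 ^ (n + 1) = 𝔪 ^ (n + 1)
    rw [← pow_add, ← hn' (n + 1) (by omega), ← hn' (n + 1 + (n + 1)) (by omega)]
  obtain ⟨f', _, hf'⟩ := (Ideal.isIdempotentElem_iff_of_fg _ (IsNoetherian.noetherian _)).mp hidem
  have hidf : f' * f' = f' := by assumption
  have hf'mem : f' ∈ 𝔪 := by
    have h1 : f' ∈ 𝔪 ^ (n + 1) := by
      rw [hf']
      exact Submodule.mem_span_singleton_self f'
    exact Ideal.pow_le_self (by omega) h1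
  obtain ⟨f, hf, hff'⟩ := (Ideal.mem_map_iff_of_surjective _ Ideal.Quotient.mk_surjective).mp hf'mem
  refine ⟨f, hf, n + 1, fun c hc => ?_⟩
  have h1 : Ideal.Quotient.mk I c ∈ 𝔪 ^ (n + 1) := by
    rw [h𝔪, ← Ideal.map_pow]
    exact Ideal.mem_map_of_mem _ hc
  rw [hf', Submodule.mem_span_singleton] at h1
  obtain ⟨a, ha⟩ := h1
  rw [← Ideal.Quotient.eq_zero_iff_mem, map_mul, map_sub, map_one, hff', ← ha, smul_eq_mul]
  linear_combination (-a) * hidf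

/-- A matrix over `ℤ_p` which vanishes modulo `p^K` lies in `p^K M_r(ℤ_p)`. -/
theorem mem_pow_smul_top_of_toZModPow {p r : ℕ} [Fact p.Prime] (X : Matrix (Fin r) (Fin r) ℤ_[p]) (K : ℕ)
    (h : (PadicInt.toZModPow K).mapMatrix X = 0) :
    X ∈ Ideal.span {(p : ℤ_[p])} ^ K • (⊤ : Submodule ℤ_[p] (Matrix (Fin r) (Fin r) ℤ_[p])) := by
  have hent : ∀ i j, X i j ∈ Ideal.span {(p : ℤ_[p])} ^ K := by
    intro i j
    have h1 : PadicInt.toZModPow K (X i j) = 0 := congrFun (congrFun h i) j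
    rw [← RingHom.mem_ker, PadicInt.ker_toZModPow] at h1
    rwa [Ideal.span_singleton_pow]
  rw [Matrix.matrix_eq_sum_single X]
  refine Submodule.sum_mem _ fun i _ => Submodule.sum_mem _ fun j _ => ?_
  have : Matrix.single i j (X i j) = X i j • Matrix.single i j (1 : ℤ_[p]) := by
    rw [Matrix.smul_single, smul_eq_mul, mul_one]
  rw [this]
  exact Submodule.smul_mem_smul (hent i j) Submodule.mem_top

/-- **Transfer over `ℤ_p`**: the relation `e_K (τ0 - ε τ0)(τ - 1) = 0` on `(ℤ/p^K)^r` for all `K`, with `e_K` outside the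
maximal ideal `𝔪 = ker (ℤ_p ⊗ C → T → T/𝔪_T)`, gives the relation (R) for `ρ`. -/
theorem transfer_Zp (hFD : FrobeniusDensity) {p : ℕ} [Fact p.Prime] {T : Type} [CommRing T] [IsLocalRing T]
    [Algebra ℤ_[p] T] [Module.Finite ℤ_[p] T] [IsLocalHom (algebraMap ℤ_[p] T)] (D : AlgDatum ℤ_[p] T)
    (τ0 τ : GQ)
    (h : ∀ K : ℕ, ∃ e : D.HT, piHom ℤ_[p] D.ψ e ∉ IsLocalRing.maximalIdeal T ∧
      ∀ x : Fin D.r → ZMod (p ^ K), ((PadicInt.toZModPow K).mapMatrix (alphaHom ℤ_[p] D.Φ e)).mulVec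
        (((PadicInt.toZModPow K).mapMatrix (D.AO τ0)).mulVec
            (((PadicInt.toZModPow K).mapMatrix (D.AO τ)).mulVec x - x)
          - PadicInt.toZModPow K ((D.ε τ0 : ℤ_[p]ˣ) : ℤ_[p]) •
            (((PadicInt.toZModPow K).mapMatrix (D.AO τ)).mulVec x - x)) = 0) :
    (D.ρ.ρ τ0 - algebraMap ℤ_[p] T ((D.ε τ0 : ℤ_[p]ˣ) : ℤ_[p]) • 1) * (D.ρ.ρ τ - 1) = 0 := by
  refine transfer_R_end hFD D (Ideal.span {(p : ℤ_[p])}) ?_ τ0 τ fun K => ?_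
  · rw [Ne, Ideal.span_singleton_eq_top]
    exact PadicInt.isUnit_iff.not.mpr (by
      rw [PadicInt.norm_p]
      have : (1 : ℝ) < p := by exact_mod_cast (Fact.out : p.Prime).one_lt
      exact ne_of_lt (inv_lt_one_of_one_lt₀ this))
  · obtain ⟨e, he, hx⟩ := h K
    refine ⟨e, by simpa [IsLocalRing.mem_maximalIdeal] using he, ?_⟩
    apply mem_pow_smul_top_of_toZModPow
    rw [map_mul, map_mul, map_sub, map_sub, map_one]
    have hs : (PadicInt.toZModPow K).mapMatrix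
        (((D.ε τ0 : ℤ_[p]ˣ) : ℤ_[p]) • (1 : Matrix (Fin D.r) (Fin D.r) ℤ_[p])) =
        PadicInt.toZModPow K ((D.ε τ0 : ℤ_[p]ˣ) : ℤ_[p]) • 1 := by
      ext i j
      by_cases hij : i = j
      · subst hij; simp
      · simp [hij]
    rw [hs]
    apply Matrix.ext_of_mulVec_single
    intro j
    have := hx (Pi.single j 1)
    rw [Matrix.zero_mulVec, ← this, ← Matrix.mulVec_mulVec, ← Matrix.mulVec_mulVec, Matrix.sub_mulVec,
      Matrix.sub_mulVec, Matrix.one_mulVec, Matrix.smul_mulVec, Matrix.one_mulVec]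

/-- **The ordinary line from the finite levels** (`transfer_Zp` + `det_eq` + `exists_line`). -/
theorem exists_line_Zp (hFD : FrobeniusDensity) {p : ℕ} [Fact p.Prime] {T : Type} [CommRing T]
    [IsLocalRing T] [Algebra ℤ_[p] T] [Module.Finite ℤ_[p] T] [IsLocalHom (algebraMap ℤ_[p] T)]
    (D : AlgDatum ℤ_[p] T) (P : ValuationSubring (AlgebraicClosure ℚ)) (τ0 : GQ)
    (hτ0 : τ0 ∈ P.inertiaSubgroupIn ℚ)
    (hc1 : IsUnit (algebraMap ℤ_[p] T ((D.ε τ0 : ℤ_[p]ˣ) : ℤ_[p]) - 1))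
    (h : ∀ τ ∈ P.inertiaSubgroupIn ℚ, ∀ K : ℕ,
      ∃ e : D.HT, piHom ℤ_[p] D.ψ e ∉ IsLocalRing.maximalIdeal T ∧
      ∀ x : Fin D.r → ZMod (p ^ K), ((PadicInt.toZModPow K).mapMatrix (alphaHom ℤ_[p] D.Φ e)).mulVec
        (((PadicInt.toZModPow K).mapMatrix (D.AO τ0)).mulVec
            (((PadicInt.toZModPow K).mapMatrix (D.AO τ)).mulVec x - x)
          - PadicInt.toZModPow K ((D.ε τ0 : ℤ_[p]ˣ) : ℤ_[p]) •
            (((PadicInt.toZModPow K).mapMatrix (D.AO τ)).mulVec x - x)) = 0) :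
    ∃ L : Submodule T D.ρ.V,
      (∃ b : Module.Basis (Fin 2) T D.ρ.V, L = T ∙ b 0) ∧
      (∀ σ ∈ P.decompositionSubgroup ℚ, ∀ v ∈ L, D.ρ.ρ σ v ∈ L) ∧
      (∀ σ ∈ P.inertiaSubgroupIn ℚ, ∀ v : D.ρ.V, D.ρ.ρ σ v - v ∈ L) :=
  exists_line D.ρ P τ0 hτ0 _ hc1 (det_eq hFD D τ0) fun τ hτ => transfer_Zp hFD D τ0 τ (h τ hτ)

end Fermat.Agent.S33.Alg
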