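import Fermat.Agent.S33.Alg.Defs

/-!
# S33 / Alg / Unit : elements outside `𝔪` act injectively on an `𝔪`-primary module
-/

set_option autoImplicit false

namespace Fermat.Agent.S33.Alg

variable {𝕋 W : Type*} [CommRing 𝕋] [AddCommGroup W] [Module 𝕋 W]

/-- `W` is killed by a power of `𝔪`. -/
def Nil (𝔪 : Ideal 𝕋) (W : Type*) [AddCommGroup W] [Module 𝕋 W] : Prop :=
  ∃ n : ℕ, ∀ a ∈ 𝔪 ^ n, ∀ x : W, a • x = 0

theorem eq_zero_of_smul_eq_zero {𝔪 : Ideal 𝕋} [h𝔪 : 𝔪.IsMaximal] (hnil : Nil 𝔪 W) {a : 𝕋} (ha : a ∉ 𝔪)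
    {x : W} (h : a • x = 0) : x = 0 := by
  obtain ⟨n, hn⟩ := hnil
  obtain ⟨b, i, hi, hb⟩ := h𝔪.exists_inv ha
  have h1 : i • x = x := by
    have : (b * a + i) • x = x := by rw [hb, one_smul]
    rwa [add_smul, mul_smul, h, smul_zero, zero_add] at this
  have h2 : ∀ k : ℕ, i ^ k • x = x := by
    intro k
    induction k with
    | zero => simp
    | succ k ih => rw [pow_succ, mul_smul, h1, ih]
  rw [← h2 n]
  exact hn _ (Ideal.pow_mem_pow hi n) x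

theorem eq_of_smul_eq_smul {𝔪 : Ideal 𝕋} [𝔪.IsMaximal] (hnil : Nil 𝔪 W) {a : 𝕋} (ha : a ∉ 𝔪)
    {x y : W} (h : a • x = a • y) : x = y := by
  rw [← sub_eq_zero]
  apply eq_zero_of_smul_eq_zero hnil ha
  rw [smul_sub, h, sub_self]

/-- an element which kills a nonzero vector is in `𝔪`. -/
theorem mem_of_smul_eq_zero {𝔪 : Ideal 𝕋} [𝔪.IsMaximal] (hnil : Nil 𝔪 W) {a : 𝕋} {x : W} (hx : x ≠ 0)
    (h : a • x = 0) : a ∈ 𝔪 := by
  by_contra ha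
  exact hx (eq_zero_of_smul_eq_zero hnil ha h)

end Fermat.Agent.S33.Alg
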